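/-
Team KUMMER shared definitions (owner: helper10).
FLT for the exponents 5, 7, 11, 13 via Sophie Germain (case I) and Kummer (case II).
-/
import Mathlib

set_option autoImplicit false

namespace Fermat.Agent.Kummer

open NumberField

/-- Kummer's lemma for the prime `p` in `K = ℚ(ζ_p)`: a unit of `𝓞 K` congruent to a rational
integer modulo `p` is a `p`-th power of a unit. -/
def KummerLemmaHolds (p : ℕ) (K : Type*) [Field K] [NumberField K] : Prop :=
  ∀ u : (𝓞 K)ˣ, (∃ n : ℤ, (p : 𝓞 K) ∣ (u : 𝓞 K) - (n : 𝓞 K)) → ∃ v : (𝓞 K)ˣ, u = v ^ p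

/-- Sophie Germain's auxiliary-prime condition for the exponent `p` and the auxiliary prime `q`. -/
def SGCondition (p q : ℕ) : Prop :=
  q.Prime ∧
    (∀ x y z : ZMod q, x ^ p + y ^ p + z ^ p = 0 → x = 0 ∨ y = 0 ∨ z = 0) ∧
    ∀ x : ZMod q, x ^ p ≠ (p : ZMod q)

/-- Fermat's Last Theorem for the exponent `p`, for coprime integer solutions. -/
def FLTCoprime (p : ℕ) : Prop :=
  ∀ a b c : ℤ, a ≠ 0 → b ≠ 0 → c ≠ 0 → IsCoprime a b → a ^ p + b ^ p ≠ c ^ p

end Fermat.Agent.Kummer
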