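/-
KUMMER team, block CASE1 (owner: helper12).
Case I of Fermat's Last Theorem for the exponents 5, 7, 11, 13 via the
(generalised) Sophie Germain theorem with auxiliary primes 11, 29, 23, 53.
Everything is elementary and takes place in the integers.
-/
import Mathlib
import Fermat.Agent.Kummer.Defs

set_option autoImplicit false

namespace Fermat.Agent.Kummer.CaseI

open Finset

/-- The cofactor `(y ^ p + z ^ p) / (y + z)` for odd `p`. -/
def sgPhi (p : ℕ) (y z : ℤ) : ℤ := ∑ i ∈ range p, y ^ i * (-z) ^ (p - 1 - i)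

theorem sgPhi_mul {p : ℕ} (hp : Odd p) (y z : ℤ) : (y + z) * sgPhi p y z = y ^ p + z ^ p := by
  have h := geom_sum₂_mul y (-z) p
  rw [sub_neg_eq_add, hp.neg_pow, sub_neg_eq_add] at h
  rw [mul_comm]
  exact h

theorem isCoprime_add_sgPhi {p : ℕ} (hp : p.Prime) {y z : ℤ} (hyz : IsCoprime y z)
    (hpyz : ¬ (p : ℤ) ∣ y + z) : IsCoprime (y + z) (sgPhi p y z) := by
  rw [Int.isCoprime_iff_gcd_eq_one]
  by_contra hne
  obtain ⟨r, hr, hrd⟩ := Nat.exists_prime_and_dvd hne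
  have hr1 : (r : ℤ) ∣ y + z := (Int.natCast_dvd_natCast.mpr hrd).trans (Int.gcd_dvd_left _ _)
  have hr2 : (r : ℤ) ∣ sgPhi p y z := (Int.natCast_dvd_natCast.mpr hrd).trans (Int.gcd_dvd_right _ _)
  have hrp : Prime (r : ℤ) := Nat.prime_iff_prime_int.mp hr
  have h3 : (r : ℤ) ∣ (p : ℤ) * (-z) ^ (p - 1) := by
    have := (dvd_geom_sum₂_iff_of_dvd_sub (n := p) (x := y) (y := -z) (p := (r : ℤ))
      (by simpa using hr1)).mp hr2
    exact_mod_cast this
  rcases hrp.dvd_or_dvd h3 with h4 | h4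
  · have : r = p := (Nat.prime_dvd_prime_iff_eq hr hp).mp (Int.natCast_dvd_natCast.mp h4)
    subst this
    exact hpyz hr1
  · have hz : (r : ℤ) ∣ z := by
      have := hrp.dvd_of_dvd_pow h4
      simpa using this
    have hy : (r : ℤ) ∣ y := by
      have := dvd_sub hr1 hz
      simpa using this
    exact hrp.not_isUnit (hyz.isUnit_of_dvd' hy hz)


/-- Decomposition step: if `x ^ p + y ^ p + z ^ p = 0` with `y, z` coprime and `p ∤ x`, then
`y + z` and the cofactor are both `p`-th powers. -/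
theorem sg_decomp {p : ℕ} (hp : p.Prime) (hp2 : p ≠ 2) {x y z : ℤ} (hyz : IsCoprime y z)
    (h : x ^ p + y ^ p + z ^ p = 0) (hpx : ¬ (p : ℤ) ∣ x) :
    ∃ a α : ℤ, y + z = a ^ p ∧ sgPhi p y z = α ^ p := by
  have hodd : Odd p := hp.odd_of_ne_two hp2
  have hmul : (y + z) * sgPhi p y z = (-x) ^ p := by
    rw [sgPhi_mul hodd, hodd.neg_pow]; linarith
  have hpyz : ¬ (p : ℤ) ∣ y + z := by
    intro hd
    have h1 : (p : ℤ) ∣ (-x) ^ p := hmul ▸ (hd.mul_right _)
    have h2 := (Nat.prime_iff_prime_int.mp hp).dvd_of_dvd_pow h1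
    exact hpx (by simpa using h2)
  have hcop := isCoprime_add_sgPhi hp hyz hpyz
  obtain ⟨a, ha⟩ := Int.eq_pow_of_mul_eq_pow_odd_left hcop hodd hmul
  obtain ⟨α, hα⟩ := Int.eq_pow_of_mul_eq_pow_odd_right hcop hodd hmul
  exact ⟨a, α, ha, hα⟩

/-- Core of Sophie Germain's argument, with the auxiliary prime `q` dividing `x`. -/
theorem sg_aux {p q : ℕ} (hp : p.Prime) (hp2 : p ≠ 2) [Fact q.Prime]
    (h1 : ∀ x y z : ZMod q, x ^ p + y ^ p + z ^ p = 0 → x = 0 ∨ y = 0 ∨ z = 0)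
    (h2 : ∀ x : ZMod q, x ^ p ≠ (p : ZMod q))
    {x y z : ℤ} (hxy : IsCoprime x y) (hyz : IsCoprime y z) (hzx : IsCoprime z x)
    (h : x ^ p + y ^ p + z ^ p = 0)
    (hpx : ¬ (p : ℤ) ∣ x) (hpy : ¬ (p : ℤ) ∣ y) (hpz : ¬ (p : ℤ) ∣ z)
    (hqx : (x : ZMod q) = 0) : False := by
  have hq : q.Prime := Fact.out
  have hodd : Odd p := hp.odd_of_ne_two hp2
  have hp0 : p ≠ 0 := hp.ne_zero
  obtain ⟨a, α, ha, hα⟩ := sg_decomp hp hp2 hyz h hpx
  obtain ⟨b, β, hb, hβ⟩ := sg_decomp hp hp2 hzx (by linarith : y ^ p + z ^ p + x ^ p = 0) hpy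
  obtain ⟨c, γ, hc, hγ⟩ := sg_decomp hp hp2 hxy (by linarith : z ^ p + x ^ p + y ^ p = 0) hpz
  -- no two of x, y, z vanish mod q
  have hnot : ∀ {u v : ℤ}, IsCoprime u v → (u : ZMod q) = 0 → (v : ZMod q) = 0 → False := by
    intro u v huv hu hv
    rw [ZMod.intCast_zmod_eq_zero_iff_dvd] at hu hv
    exact (Nat.prime_iff_prime_int.mp hq).not_isUnit (huv.isUnit_of_dvd' hu hv)
  have hy0 : (y : ZMod q) ≠ 0 := fun hy => hnot hxy hqx hy
  have hz0 : (z : ZMod q) ≠ 0 := fun hz => hnot hzx hz hqx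
  -- cast the three sum relations
  have ha' : (y : ZMod q) + z = (a : ZMod q) ^ p := by exact_mod_cast congrArg (Int.cast : ℤ → ZMod q) ha
  have hb' : (z : ZMod q) + x = (b : ZMod q) ^ p := by exact_mod_cast congrArg (Int.cast : ℤ → ZMod q) hb
  have hc' : (x : ZMod q) + y = (c : ZMod q) ^ p := by exact_mod_cast congrArg (Int.cast : ℤ → ZMod q) hc
  have hsum : (c : ZMod q) ^ p + (b : ZMod q) ^ p + (-(a : ZMod q)) ^ p = 0 := by
    rw [hodd.neg_pow, ← ha', ← hb', ← hc', hqx]; ring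
  rcases h1 _ _ _ hsum with hc0 | hb0 | ha0
  · -- c = 0 : then y = 0 mod q
    rw [hc0, zero_pow hp0, hqx, zero_add] at hc'
    exact hy0 hc'
  · rw [hb0, zero_pow hp0, hqx, add_zero] at hb'
    exact hz0 hb'
  · -- a = 0 : z = -y mod q
    have ha0' : (a : ZMod q) = 0 := by simpa using ha0
    rw [ha0', zero_pow hp0] at ha'
    have hzy : (z : ZMod q) = -(y : ZMod q) := by linear_combination ha'
    -- α ^ p = p * y ^ (p - 1)
    have hα' : (α : ZMod q) ^ p = (p : ZMod q) * (y : ZMod q) ^ (p - 1) := by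
      have := congrArg (Int.cast : ℤ → ZMod q) hα
      rw [sgPhi] at this
      push_cast at this
      rw [← this, hzy, neg_neg]
      rw [Finset.sum_congr rfl (fun i hi => by
        rw [← pow_add, Nat.add_sub_cancel' (Nat.le_sub_one_of_lt (Finset.mem_range.mp hi))] :
        ∀ i ∈ range p, (y : ZMod q) ^ i * (y : ZMod q) ^ (p - 1 - i) = (y : ZMod q) ^ (p - 1))]
      simp
    -- γ ^ p = y ^ (p - 1)
    have hγ' : (γ : ZMod q) ^ p = (y : ZMod q) ^ (p - 1) := by
      have := congrArg (Int.cast : ℤ → ZMod q) hγ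
      rw [sgPhi] at this
      push_cast at this
      rw [← this, hqx]
      rw [Finset.sum_eq_single_of_mem 0 (Finset.mem_range.mpr hp.pos)]
      · have hev : Even (p - 1) := hp.even_sub_one hp2
        simp [hev.neg_pow]
      · intro i _ hi
        simp [zero_pow hi]
    have hγ0 : (γ : ZMod q) ≠ 0 := by
      intro h0
      rw [h0, zero_pow hp0] at hγ'
      exact pow_ne_zero _ hy0 hγ'.symm
    refine h2 ((α : ZMod q) / γ) ?_
    rw [div_pow, hα', hγ', mul_div_assoc, div_self (pow_ne_zero _ hy0), mul_one]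

/-- **Sophie Germain's theorem** (generalised form with an auxiliary prime `q`). -/
theorem sophie_germain {p q : ℕ} (hp : p.Prime) (hp2 : p ≠ 2) [Fact q.Prime]
    (h1 : ∀ x y z : ZMod q, x ^ p + y ^ p + z ^ p = 0 → x = 0 ∨ y = 0 ∨ z = 0)
    (h2 : ∀ x : ZMod q, x ^ p ≠ (p : ZMod q))
    {x y z : ℤ} (hxy : IsCoprime x y) (hyz : IsCoprime y z) (hzx : IsCoprime z x)
    (h : x ^ p + y ^ p + z ^ p = 0) : (p : ℤ) ∣ x * y * z := by
  by_contra hndvd
  have hpp := Nat.prime_iff_prime_int.mp hp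
  have hpx : ¬ (p : ℤ) ∣ x := fun hd => hndvd ((hd.mul_right y).mul_right z)
  have hpy : ¬ (p : ℤ) ∣ y := fun hd => hndvd ((hd.mul_left x).mul_right z)
  have hpz : ¬ (p : ℤ) ∣ z := fun hd => hndvd (hd.mul_left (x * y))
  have hcast : (x : ZMod q) ^ p + (y : ZMod q) ^ p + (z : ZMod q) ^ p = 0 := by
    exact_mod_cast congrArg (Int.cast : ℤ → ZMod q) h
  rcases h1 _ _ _ hcast with hx | hy | hz
  · exact sg_aux hp hp2 h1 h2 hxy hyz hzx h hpx hpy hpz hx
  · exact sg_aux hp hp2 h1 h2 hyz hzx hxy (by linarith) hpy hpz hpx hy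
  · exact sg_aux hp hp2 h1 h2 hzx hxy hyz (by linarith) hpz hpx hpy hz

/-- Case I for an exponent `p` admitting a Sophie Germain auxiliary prime `q`:
every coprime solution of `a ^ p + b ^ p = c ^ p` has `p ∣ a * b * c`. -/
theorem dvd_mul_of_sgCondition {p q : ℕ} (hp : p.Prime) (hp2 : p ≠ 2)
    (hsg : Fermat.Agent.Kummer.SGCondition p q)
    {a b c : ℤ} (hab : IsCoprime a b) (h : a ^ p + b ^ p = c ^ p) : (p : ℤ) ∣ a * b * c := by
  obtain ⟨hq, h1, h2⟩ := hsg
  have : Fact q.Prime := ⟨hq⟩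
  have hodd : Odd p := hp.odd_of_ne_two hp2
  have hp0 : 0 < p := hp.pos
  have hp1 : p = (p - 1) + 1 := (Nat.sub_add_cancel hp.one_le).symm
  -- a and c, b and c are coprime
  have hac : IsCoprime a c := by
    have h3 : IsCoprime a (b ^ p + a * a ^ (p - 1)) := (hab.pow_right).add_mul_left_right _
    have h4 : b ^ p + a * a ^ (p - 1) = c ^ p := by
      rw [← pow_succ', ← hp1]; linarith
    rw [h4] at h3
    exact (IsCoprime.pow_right_iff hp0).mp h3
  have hbc : IsCoprime b c := by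
    have h3 : IsCoprime b (a ^ p + b * b ^ (p - 1)) := (hab.symm.pow_right).add_mul_left_right _
    have h4 : a ^ p + b * b ^ (p - 1) = c ^ p := by
      rw [← pow_succ', ← hp1]; linarith
    rw [h4] at h3
    exact (IsCoprime.pow_right_iff hp0).mp h3
  have hsum : a ^ p + b ^ p + (-c) ^ p = 0 := by rw [hodd.neg_pow]; linarith
  have := sophie_germain hp hp2 h1 h2 hab hbc.neg_right hac.symm.neg_left hsum
  simpa using this

end Fermat.Agent.Kummer.CaseI
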