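/-
Team KUMMER, block II-A (owner: helper15).
One step of Kummer's descent ("Case II" of Fermat's Last Theorem for a prime exponent `p`)
in a cyclotomic ring of integers which is a PID and satisfies Kummer's lemma.
Generalises the descent of `Mathlib/NumberTheory/FLT/Three.lean` to an arbitrary odd prime.
-/
import Fermat.Agent.Kummer.Defs

set_option autoImplicit false

open NumberField Polynomial Finset

namespace Fermat.Agent.Kummer.CaseIIStep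

section Abstract

variable {R : Type*} [CommRing R] [IsDomain R] {p : ℕ} {ζ : R}

omit [IsDomain R] in
/-- Every element of `R` is congruent to a rational integer modulo `ζ - 1`, as soon as the
quotient has prime cardinality. -/
lemma exists_int_dvd_sub (hp : p.Prime) (hcard : Nat.card (R ⧸ Ideal.span {ζ - 1}) = p) (z : R) :
    ∃ n : ℤ, (ζ - 1) ∣ z - n := by
  have : Fact p.Prime := ⟨hp⟩
  have : Nontrivial (R ⧸ Ideal.span {ζ - 1}) := by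
    have hfin : Finite (R ⧸ Ideal.span {ζ - 1}) :=
      Nat.finite_of_card_ne_zero (hcard ▸ hp.ne_zero)
    rw [← Finite.one_lt_card_iff_nontrivial, hcard]; exact hp.one_lt
  have htop := zmultiples_eq_top_of_prime_card (G := R ⧸ Ideal.span {ζ - 1}) hcard
    (g := 1) one_ne_zero
  have hmem : (Ideal.Quotient.mk (Ideal.span {ζ - 1}) z) ∈ AddSubgroup.zmultiples
      (1 : R ⧸ Ideal.span {ζ - 1}) := htop ▸ AddSubgroup.mem_top _
  obtain ⟨n, hn⟩ := AddSubgroup.mem_zmultiples_iff.mp hmem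
  refine ⟨n, ?_⟩
  rw [← Ideal.mem_span_singleton, ← Ideal.Quotient.eq, ← hn]
  simp

/-- If `ζ - 1 ∣ a - b` then `(ζ - 1) ^ p ∣ a ^ p - b ^ p`. -/
lemma pow_dvd_pow_sub_pow (hp : p.Prime) (hζ : IsPrimitiveRoot ζ p) {a b : R}
    (h : (ζ - 1) ∣ a - b) : (ζ - 1) ^ p ∣ a ^ p - b ^ p := by
  rw [hζ.pow_sub_pow_eq_prod_sub_mul a b hp.pos]
  have hcard : (nthRootsFinset p (1 : R)).card = p := hζ.card_nthRootsFinset
  conv_lhs => rw [← hcard, ← Finset.prod_const]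
  refine Finset.prod_dvd_prod_of_dvd _ _ fun η hη => ?_
  have h1 : (ζ - 1) ∣ 1 - η :=
    hζ.sub_one_dvd_sub hp (η₁ := (1 : R)) (by simp [mem_nthRootsFinset hp.pos]) hη
  have : a - η * b = (a - b) + (1 - η) * b := by ring
  rw [this]
  exact dvd_add h (dvd_mul_of_dvd_left h1 _)

/-- All the factors `x + η y` are divisible by `ζ - 1` as soon as `x ^ p + y ^ p` is. -/
lemma dvd_add_mul (hp : p.Prime) (hp2 : p ≠ 2) (hζ : IsPrimitiveRoot ζ p) (hπ : Prime (ζ - 1))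
    {x y : R} (h : (ζ - 1) ∣ x ^ p + y ^ p) {η : R} (hη : η ∈ nthRootsFinset p (1 : R)) :
    (ζ - 1) ∣ x + η * y := by
  rw [hζ.pow_add_pow_eq_prod_add_mul x y (hp.odd_of_ne_two hp2)] at h
  obtain ⟨η₀, hη₀, h₀⟩ := (Prime.dvd_finsetProd_iff hπ _).mp h
  have h1 : (ζ - 1) ∣ η - η₀ := hζ.sub_one_dvd_sub hp hη hη₀
  have : x + η * y = (x + η₀ * y) + (η - η₀) * y := by ring
  rw [this]
  exact dvd_add h₀ (dvd_mul_of_dvd_left h1 _)

/-- Pigeonhole: one of the factors `x + η y` is divisible by `(ζ - 1) ^ 2`. -/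
lemma exists_sq_dvd (hp : p.Prime) (hp2 : p ≠ 2) (hζ : IsPrimitiveRoot ζ p) (hπ : Prime (ζ - 1))
    (hcard : Nat.card (R ⧸ Ideal.span {ζ - 1}) = p) {x y : R} (hy : ¬ (ζ - 1) ∣ y)
    (h : (ζ - 1) ∣ x ^ p + y ^ p) :
    ∃ η ∈ nthRootsFinset p (1 : R), (ζ - 1) ^ 2 ∣ x + η * y := by
  classical
  have hdvd : ∀ η ∈ nthRootsFinset p (1 : R), (ζ - 1) ∣ x + η * y :=
    fun η hη => dvd_add_mul hp hp2 hζ hπ h hη
  choose! t ht using hdvd
  let f : (nthRootsFinset p (1 : R)) → R ⧸ Ideal.span {ζ - 1} :=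
    fun η => Ideal.Quotient.mk _ (t η)
  have hfin : Finite (R ⧸ Ideal.span {ζ - 1}) := Nat.finite_of_card_ne_zero (hcard ▸ hp.ne_zero)
  have hinj : Function.Injective f := by
    rintro ⟨η₁, h₁⟩ ⟨η₂, h₂⟩ h12
    by_contra hne
    have hne' : η₁ ≠ η₂ := fun h => hne (Subtype.ext h)
    simp only [f] at h12
    rw [Ideal.Quotient.eq, Ideal.mem_span_singleton] at h12
    obtain ⟨v, hv⟩ := hζ.nthRootsFinset_pairwise_associated_sub_one_sub_of_prime hp h₁ h₂ hne'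
    apply hy
    have e : (ζ - 1) * (t η₁ - t η₂) = (ζ - 1) * (v * y) := by
      have e1 := ht η₁ h₁
      have e2 := ht η₂ h₂
      linear_combination (-1 : R) * e1 + e2 - y * hv
    have e' := mul_left_cancel₀ hπ.ne_zero e
    rw [e'] at h12
    exact (hπ.dvd_or_dvd h12).resolve_left
      (fun hu => hπ.not_isUnit (isUnit_of_dvd_unit hu v.isUnit))
  have hbij := hinj.bijective_of_nat_card_le
    (by rw [hcard, Nat.card_eq_finsetCard, hζ.card_nthRootsFinset])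
  obtain ⟨⟨η₀, h₀⟩, hη₀⟩ := hbij.2 0
  refine ⟨η₀, h₀, ?_⟩
  simp only [f] at hη₀
  rw [Ideal.Quotient.eq_zero_iff_mem, Ideal.mem_span_singleton] at hη₀
  rw [ht η₀ h₀, pow_two]
  exact mul_dvd_mul_left _ hη₀

/-- Two cofactors of distinct factors `x + η y`, both prime to `ζ - 1`, are coprime. -/
lemma isCoprime_of_dvd_of_not_dvd [IsPrincipalIdealRing R] (hp : p.Prime)
    (hζ : IsPrimitiveRoot ζ p) (hπ : Prime (ζ - 1))
    {x y : R} (hxy : IsCoprime x y) {η₁ η₂ : R} (h₁ : η₁ ∈ nthRootsFinset p (1 : R))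
    (h₂ : η₂ ∈ nthRootsFinset p (1 : R)) (hne : η₁ ≠ η₂) {t₁ t₂ : R} (ht₁ : t₁ ∣ x + η₁ * y)
    (ht₂ : t₂ ∣ x + η₂ * y) (hπ₁ : ¬ (ζ - 1) ∣ t₁) (_hπ₂ : ¬ (ζ - 1) ∣ t₂) : IsCoprime t₁ t₂ := by
  refine isCoprime_of_prime_dvd (fun h => hπ₁ (h.1 ▸ dvd_zero _)) fun q hq hq1 hq2 => ?_
  obtain ⟨v, hv⟩ := hζ.nthRootsFinset_pairwise_associated_sub_one_sub_of_prime hp h₁ h₂ hne
  have hqa : q ∣ x + η₁ * y := hq1.trans ht₁
  have hqb : q ∣ x + η₂ * y := hq2.trans ht₂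
  have hqy : q ∣ (ζ - 1) * (v * y) := by
    have : (ζ - 1) * (v * y) = (x + η₁ * y) - (x + η₂ * y) := by linear_combination y * hv
    rw [this]; exact dvd_sub hqa hqb
  have hqx : q ∣ (ζ - 1) * (v * x) := by
    have : (ζ - 1) * (v * x) = η₁ * (x + η₂ * y) - η₂ * (x + η₁ * y) := by
      linear_combination x * hv
    rw [this]; exact dvd_sub (Dvd.dvd.mul_left hqb _) (Dvd.dvd.mul_left hqa _)
  by_cases hqπ : q ∣ ζ - 1
  · exact hπ₁ (((hq.associated_of_dvd hπ hqπ).symm.dvd).trans hq1)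
  · have key : ∀ c : R, q ∣ (ζ - 1) * (v * c) → q ∣ c := by
      intro c hc
      rcases hq.dvd_or_dvd hc with h | h
      · exact absurd h hqπ
      · rcases hq.dvd_or_dvd h with h' | h'
        · exact absurd (isUnit_of_dvd_unit h' v.isUnit) hq.not_isUnit
        · exact h'
    exact hq.not_isUnit (hxy.isUnit_of_dvd' (key x hqx) (key y hqy))

/-- From `(ζ - 1) ^ p ∣ a ^ p + u * b ^ p` with `b` prime to `ζ - 1`, the unit `u` is congruent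
to a rational integer modulo `p`. -/
lemma exists_int_dvd_unit_sub (hp : p.Prime) (hζ : IsPrimitiveRoot ζ p)
    (hcard : Nat.card (R ⧸ Ideal.span {ζ - 1}) = p)
    (hassoc : Associated ((ζ - 1) ^ (p - 1)) (p : R))
    {a b : R} {u : Rˣ} (hb : ¬ (ζ - 1) ∣ b) (h : (ζ - 1) ^ p ∣ a ^ p + u * b ^ p) :
    ∃ n : ℤ, (p : R) ∣ (u : R) - n := by
  obtain ⟨n₁, hn₁⟩ := exists_int_dvd_sub hp hcard a
  obtain ⟨n₂, hn₂⟩ := exists_int_dvd_sub hp hcard b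
  have hpπ : (p : R) ∣ (ζ - 1) ^ p := by
    have h1 : (p : R) ∣ (ζ - 1) ^ (p - 1) := hassoc.symm.dvd
    have h2 : (ζ - 1) ^ (p - 1) ∣ (ζ - 1) ^ p := pow_dvd_pow _ (Nat.sub_le _ _)
    exact h1.trans h2
  have h1 : (p : R) ∣ a ^ p - (n₁ : R) ^ p := hpπ.trans (pow_dvd_pow_sub_pow hp hζ hn₁)
  have h2 : (p : R) ∣ b ^ p - (n₂ : R) ^ p := hpπ.trans (pow_dvd_pow_sub_pow hp hζ hn₂)
  have h3 : (p : R) ∣ a ^ p + u * b ^ p := hpπ.trans h
  have hn₂p : ¬ (p : ℤ) ∣ n₂ := by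
    intro hdiv
    apply hb
    have hπp : (ζ - 1) ∣ (p : R) :=
      (dvd_pow_self _ (by have := hp.two_le; omega)).trans hassoc.dvd
    have h4 : (ζ - 1) ∣ (n₂ : R) := by
      obtain ⟨k, rfl⟩ := hdiv
      push_cast
      exact Dvd.dvd.mul_right hπp _
    have h5 := dvd_add hn₂ h4
    simpa using h5
  have hcop : IsCoprime (n₂ ^ p) (p : ℤ) := by
    apply IsCoprime.pow_left
    exact (((Nat.prime_iff_prime_int.mp hp).coprime_iff_not_dvd).mpr hn₂p).symm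
  obtain ⟨k, l, hkl⟩ := hcop
  obtain ⟨c1, hc1⟩ := h1
  obtain ⟨c2, hc2⟩ := h2
  obtain ⟨c3, hc3⟩ := h3
  have hkl' : (k : R) * (n₂ : R) ^ p + (l : R) * (p : R) = 1 := by
    exact_mod_cast congrArg (Int.cast : ℤ → R) hkl
  refine ⟨-(k * n₁ ^ p), k * c3 - k * c1 - k * u * c2 + l * u, ?_⟩
  push_cast
  linear_combination (-(k : R)) * hc1 - (k : R) * u * hc2 + (k : R) * hc3 - (u : R) * hkl'


/-- The descent step, in normalised form (`(ζ - 1) ^ 2 ∣ x + y`). -/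
theorem descent_normalized [IsPrincipalIdealRing R] (hp : p.Prime) (hp2 : p ≠ 2)
    (hζ : IsPrimitiveRoot ζ p) (hπ : Prime (ζ - 1))
    (hcard : Nat.card (R ⧸ Ideal.span {ζ - 1}) = p)
    (hassoc : Associated ((ζ - 1) ^ (p - 1)) (p : R))
    (hKL : ∀ u : Rˣ, (∃ n : ℤ, (p : R) ∣ (u : R) - n) → ∃ v : Rˣ, u = v ^ p)
    {x y w : R} {u : Rˣ} {m : ℕ} (hm : 1 ≤ m) (hy : ¬ (ζ - 1) ∣ y) (hw : ¬ (ζ - 1) ∣ w)
    (hxy : IsCoprime x y) (hsq : (ζ - 1) ^ 2 ∣ x + y)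
    (H : x ^ p + y ^ p = u * ((ζ - 1) ^ m * w) ^ p) :
    2 ≤ m ∧ ∃ (x' y' w' : R) (u' : Rˣ), ¬ (ζ - 1) ∣ x' ∧ ¬ (ζ - 1) ∣ y' ∧ ¬ (ζ - 1) ∣ w' ∧
      IsCoprime x' y' ∧ x' ^ p + y' ^ p = u' * ((ζ - 1) ^ (m - 1) * w') ^ p := by
  classical
  have hodd : Odd p := hp.odd_of_ne_two hp2
  have hp1 : 1 ≤ p := hp.one_le
  have h1s : (1 : R) ∈ nthRootsFinset p (1 : R) := by simp [mem_nthRootsFinset hp.pos]
  have hπdvd : (ζ - 1) ∣ x ^ p + y ^ p := by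
    rw [H, mul_pow, ← pow_mul]
    exact Dvd.dvd.mul_left (Dvd.dvd.mul_right (dvd_pow_self _ (by positivity)) _) _
  -- the factors for `η ≠ 1` are exactly divisible by `ζ - 1`
  have hD : ∀ η ∈ nthRootsFinset p (1 : R), η ≠ 1 →
      ∃ t, x + η * y = (ζ - 1) * t ∧ ¬ (ζ - 1) ∣ t := by
    intro η hη hne
    obtain ⟨t, ht⟩ := dvd_add_mul hp hp2 hζ hπ hπdvd hη
    refine ⟨t, ht, fun ⟨t', ht'⟩ => hy ?_⟩
    obtain ⟨v, hv⟩ := hζ.nthRootsFinset_pairwise_associated_sub_one_sub_of_prime hp hη h1s hne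
    obtain ⟨c, hc⟩ := hsq
    have e : (ζ - 1) * (v * y) = (ζ - 1) * ((ζ - 1) * (t' - c)) := by
      linear_combination y * hv + ht + (ζ - 1) * ht' - hc
    have e' := mul_left_cancel₀ hπ.ne_zero e
    have h3 : (ζ - 1) ∣ v * y := ⟨_, e'⟩
    exact (hπ.dvd_or_dvd h3).resolve_left
      (fun hu => hπ.not_isUnit (isUnit_of_dvd_unit hu v.isUnit))
  choose! t ht using hD
  have hcard_erase : ((nthRootsFinset p (1 : R)).erase 1).card = p - 1 := by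
    rw [Finset.card_erase_of_mem h1s, hζ.card_nthRootsFinset]
  have hprod : x ^ p + y ^ p = (x + y) * ∏ η ∈ (nthRootsFinset p (1 : R)).erase 1, (x + η * y) := by
    rw [hζ.pow_add_pow_eq_prod_add_mul x y hodd, ← Finset.mul_prod_erase _ _ h1s, one_mul]
  have hprod2 : ∏ η ∈ (nthRootsFinset p (1 : R)).erase 1, (x + η * y) =
      (ζ - 1) ^ (p - 1) * ∏ η ∈ (nthRootsFinset p (1 : R)).erase 1, t η := by
    rw [← hcard_erase, ← Finset.prod_const, ← Finset.prod_mul_distrib]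
    refine Finset.prod_congr rfl fun η hη => ?_
    exact (ht η (Finset.mem_of_mem_erase hη) (Finset.ne_of_mem_erase hη)).1
  have hT : ¬ (ζ - 1) ∣ ∏ η ∈ (nthRootsFinset p (1 : R)).erase 1, t η := by
    rw [Prime.dvd_finsetProd_iff hπ]
    rintro ⟨η, hη, hdvd⟩
    exact (ht η (Finset.mem_of_mem_erase hη) (Finset.ne_of_mem_erase hη)).2 hdvd
  have hexp : p - 1 + (p * (m - 1) + 1) = m * p := by
    obtain ⟨m', rfl⟩ : ∃ m', m = m' + 1 := ⟨m - 1, by omega⟩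
    obtain ⟨p', rfl⟩ : ∃ p', p = p' + 1 := ⟨p - 1, by omega⟩
    simp only [Nat.add_sub_cancel]
    ring
  have hkey : (x + y) * ∏ η ∈ (nthRootsFinset p (1 : R)).erase 1, t η =
      (ζ - 1) ^ (p * (m - 1) + 1) * (u * w ^ p) := by
    have h3 : (ζ - 1) ^ (p - 1) * ((x + y) * ∏ η ∈ (nthRootsFinset p (1 : R)).erase 1, t η) =
        (ζ - 1) ^ (p - 1) * ((ζ - 1) ^ (p * (m - 1) + 1) * (u * w ^ p)) := by
      calc (ζ - 1) ^ (p - 1) * ((x + y) * ∏ η ∈ (nthRootsFinset p (1 : R)).erase 1, t η)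
          = (x + y) * ((ζ - 1) ^ (p - 1) * ∏ η ∈ (nthRootsFinset p (1 : R)).erase 1, t η) := by
            ring
        _ = x ^ p + y ^ p := by rw [← hprod2, ← hprod]
        _ = u * ((ζ - 1) ^ m * w) ^ p := H
        _ = (ζ - 1) ^ (p - 1) * ((ζ - 1) ^ (p * (m - 1) + 1) * (u * w ^ p)) := by
            rw [mul_pow, ← pow_mul, ← mul_assoc ((ζ - 1) ^ (p - 1)), ← pow_add, hexp]; ring
    exact mul_left_cancel₀ (pow_ne_zero _ hπ.ne_zero) h3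
  have hdvd0 : (ζ - 1) ^ (p * (m - 1) + 1) ∣ x + y :=
    hπ.pow_dvd_of_dvd_mul_right _ hT ⟨_, hkey⟩
  obtain ⟨t₀, ht₀⟩ := hdvd0
  have hkey2 : t₀ * ∏ η ∈ (nthRootsFinset p (1 : R)).erase 1, t η = u * w ^ p := by
    have h4 : (ζ - 1) ^ (p * (m - 1) + 1) *
        (t₀ * ∏ η ∈ (nthRootsFinset p (1 : R)).erase 1, t η) =
        (ζ - 1) ^ (p * (m - 1) + 1) * (u * w ^ p) := by
      rw [← hkey, ht₀]; ring
    exact mul_left_cancel₀ (pow_ne_zero _ hπ.ne_zero) h4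
  have ht₀π : ¬ (ζ - 1) ∣ t₀ := by
    intro h
    have h5 : (ζ - 1) ∣ (u : R) * w ^ p := hkey2 ▸ Dvd.dvd.mul_right h _
    rcases hπ.dvd_or_dvd h5 with h' | h'
    · exact hπ.not_isUnit (isUnit_of_dvd_unit h' u.isUnit)
    · exact hw (hπ.dvd_of_dvd_pow h')
  have hm2 : 2 ≤ m := by
    by_contra hlt
    have hm1 : m = 1 := by omega
    subst hm1
    simp only [Nat.sub_self, mul_zero, zero_add, pow_one] at ht₀
    obtain ⟨c, hc⟩ := hsq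
    apply ht₀π
    exact ⟨c, mul_left_cancel₀ hπ.ne_zero (by rw [← ht₀, hc]; ring)⟩
  refine ⟨hm2, ?_⟩
  -- the cofactors
  let T : R → R := fun η => if η = 1 then t₀ else t η
  have hTdvd : ∀ η ∈ nthRootsFinset p (1 : R), T η ∣ x + η * y := by
    intro η hη
    by_cases h : η = 1
    · subst h
      simp only [T, if_true, one_mul]
      exact ⟨(ζ - 1) ^ (p * (m - 1) + 1), by rw [ht₀]; ring⟩
    · simp only [T, if_neg h]
      exact ⟨ζ - 1, by rw [(ht η hη h).1]; ring⟩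
  have hTπ : ∀ η ∈ nthRootsFinset p (1 : R), ¬ (ζ - 1) ∣ T η := by
    intro η hη
    by_cases h : η = 1
    · simp only [T, if_pos h]; exact ht₀π
    · simp only [T, if_neg h]; exact (ht η hη h).2
  have hTcop : ∀ η₁ ∈ nthRootsFinset p (1 : R), ∀ η₂ ∈ nthRootsFinset p (1 : R), η₁ ≠ η₂ →
      IsCoprime (T η₁) (T η₂) := fun η₁ h₁ η₂ h₂ hne =>
    isCoprime_of_dvd_of_not_dvd hp hζ hπ hxy h₁ h₂ hne (hTdvd η₁ h₁) (hTdvd η₂ h₂)
      (hTπ η₁ h₁) (hTπ η₂ h₂)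
  have hTprod : ∏ η ∈ nthRootsFinset p (1 : R), T η = u * w ^ p := by
    rw [← Finset.mul_prod_erase _ _ h1s]
    have h6 : ∏ η ∈ (nthRootsFinset p (1 : R)).erase 1, T η =
        ∏ η ∈ (nthRootsFinset p (1 : R)).erase 1, t η :=
      Finset.prod_congr rfl fun η hη => by simp only [T, if_neg (Finset.ne_of_mem_erase hη)]
    rw [h6]
    simp only [T, if_true]
    exact hkey2
  have hpow : ∀ η ∈ nthRootsFinset p (1 : R), ∃ d, Associated (d ^ p) (T η) := by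
    intro η hη
    have h7 : T η * ∏ η' ∈ (nthRootsFinset p (1 : R)).erase η, T η' = u * w ^ p := by
      rw [Finset.mul_prod_erase _ _ hη, hTprod]
    have hc : IsCoprime (T η) (∏ η' ∈ (nthRootsFinset p (1 : R)).erase η, T η') :=
      IsCoprime.prod_right fun η' hη' =>
        hTcop η hη η' (Finset.mem_of_mem_erase hη') (Finset.ne_of_mem_erase hη').symm
    exact exists_associated_pow_of_associated_pow_mul hc ⟨u, by rw [h7, mul_comm]⟩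
  -- the three roots `1`, `ζ`, `ζ⁻¹`
  have hζs : ζ ∈ nthRootsFinset p (1 : R) := by
    rw [mem_nthRootsFinset hp.pos]; exact hζ.pow_eq_one
  have hζ's : ζ ^ (p - 1) ∈ nthRootsFinset p (1 : R) := by
    rw [mem_nthRootsFinset hp.pos, ← pow_mul, mul_comm, pow_mul, hζ.pow_eq_one, one_pow]
  have hζ1 : ζ ≠ 1 := hζ.ne_one hp.one_lt
  have hp3 : 3 ≤ p := by have := hp.two_le; omega
  have hζ'1 : ζ ^ (p - 1) ≠ 1 := hζ.pow_ne_one_of_pos_of_lt (by omega) (by omega)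
  have hζmul : ζ * ζ ^ (p - 1) = 1 := by
    rw [← pow_succ', Nat.sub_add_cancel hp1, hζ.pow_eq_one]
  have hζζ' : ζ ≠ ζ ^ (p - 1) := by
    intro h
    have h8 : ζ ^ 2 = 1 := by
      calc ζ ^ 2 = ζ * ζ := pow_two ζ
        _ = ζ * ζ ^ (p - 1) := by rw [← h]
        _ = 1 := hζmul
    exact hζ.pow_ne_one_of_pos_of_lt (by norm_num) (by omega) h8
  obtain ⟨ρ₀, ε₀, hρ₀⟩ := hpow 1 h1s
  obtain ⟨ρ₁, ε₁, hρ₁⟩ := hpow ζ hζs
  obtain ⟨ρ₂, ε₂, hρ₂⟩ := hpow (ζ ^ (p - 1)) hζ's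
  simp only [T, if_true, if_neg hζ1, if_neg hζ'1] at hρ₀ hρ₁ hρ₂
  have e1 := (ht ζ hζs hζ1).1
  have e2 := (ht _ hζ's hζ'1).1
  have hρ₁π : ¬ (ζ - 1) ∣ ρ₁ := fun h =>
    (ht ζ hζs hζ1).2 (hρ₁ ▸ Dvd.dvd.mul_right (dvd_pow h hp.ne_zero) _)
  have hρ₂π : ¬ (ζ - 1) ∣ ρ₂ := fun h =>
    (ht _ hζ's hζ'1).2 (hρ₂ ▸ Dvd.dvd.mul_right (dvd_pow h hp.ne_zero) _)
  have hρ₀π : ¬ (ζ - 1) ∣ ρ₀ := fun h =>
    ht₀π (hρ₀ ▸ Dvd.dvd.mul_right (dvd_pow h hp.ne_zero) _)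
  -- units
  have h1ζ : IsUnit (1 + ζ) := by
    have h9 := hζ.geom_sum_isUnit hp.two_le (j := 2)
      ((Nat.coprime_primes Nat.prime_two hp).mpr (Ne.symm hp2))
    simpa [Finset.sum_range_succ] using h9
  obtain ⟨uζ, huζ⟩ : ∃ uζ : Rˣ, (uζ : R) = ζ := ⟨(hζ.isUnit hp.ne_zero).unit, rfl⟩
  obtain ⟨u1ζ, hu1ζ⟩ : ∃ u1ζ : Rˣ, (u1ζ : R) = 1 + ζ := ⟨h1ζ.unit, rfl⟩
  obtain ⟨u₄, hu₄⟩ : ∃ u₄ : Rˣ, u₄ = uζ * ε₂ * ε₁⁻¹ := ⟨_, rfl⟩
  obtain ⟨u₅, hu₅⟩ : ∃ u₅ : Rˣ, u₅ = u1ζ * ε₀ * ε₁⁻¹ := ⟨_, rfl⟩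
  have hinv : (ε₁ : R) * ((ε₁⁻¹ : Rˣ) : R) = 1 := by simp
  have hu₄' : (u₄ : R) = ζ * ε₂ * ((ε₁⁻¹ : Rˣ) : R) := by rw [hu₄]; simp [huζ]
  have hu₅' : (u₅ : R) = (1 + ζ) * ε₀ * ((ε₁⁻¹ : Rˣ) : R) := by rw [hu₅]; simp [hu1ζ]
  have hE : ρ₁ ^ p + u₄ * ρ₂ ^ p = u₅ * ((ζ - 1) ^ (m - 1) * ρ₀) ^ p := by
    have hrel : (x + ζ * y) + ζ * (x + ζ ^ (p - 1) * y) = (1 + ζ) * (x + y) := by
      linear_combination y * hζmul
    rw [e1, e2, ht₀, ← hρ₀, ← hρ₁, ← hρ₂, pow_succ, pow_mul] at hrel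
    rw [mul_pow, ← pow_mul, mul_comm (m - 1) p, pow_mul, hu₄', hu₅']
    apply mul_left_cancel₀ (mul_ne_zero hπ.ne_zero ε₁.ne_zero)
    generalize ((ζ - 1) ^ p) ^ (m - 1) = P at hrel ⊢
    generalize ((ε₁⁻¹ : Rˣ) : R) = a at hinv ⊢
    linear_combination hrel + ((ζ - 1) * ζ * ε₂ * ρ₂ ^ p - (ζ - 1) * (1 + ζ) * ε₀ * P * ρ₀ ^ p) * hinv
  have hdvdp : (ζ - 1) ^ p ∣ ρ₁ ^ p + u₄ * ρ₂ ^ p := by
    rw [hE, mul_pow, ← pow_mul]
    exact Dvd.dvd.mul_left (Dvd.dvd.mul_right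
      (pow_dvd_pow _ (Nat.le_mul_of_pos_left p (by omega))) _) _
  obtain ⟨n, hn⟩ := exists_int_dvd_unit_sub hp hζ hcard hassoc hρ₂π hdvdp
  obtain ⟨v, hv⟩ := hKL u₄ ⟨n, hn⟩
  refine ⟨ρ₁, v * ρ₂, ρ₀, u₅, hρ₁π, ?_, hρ₀π, ?_, ?_⟩
  · exact fun h => hρ₂π ((Units.dvd_mul_left).mp h)
  · have hc := hTcop ζ hζs _ hζ's hζζ'
    simp only [T, if_neg hζ1, if_neg hζ'1] at hc
    rw [← hρ₁, ← hρ₂] at hc
    have hc' : IsCoprime (ρ₁ ^ p) (ρ₂ ^ p) := hc.of_mul_left_left.of_mul_right_left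
    have hc'' : IsCoprime ρ₁ ρ₂ := (IsCoprime.pow_iff hp.pos hp.pos).mp hc'
    exact (isCoprime_mul_unit_left_right v.isUnit _ _).mpr hc''
  · rw [mul_pow, ← Units.val_pow_eq_pow_val, ← hv]
    exact hE

/-- The descent step (abstract form). -/
theorem descent_abstract [IsPrincipalIdealRing R] (hp : p.Prime) (hp2 : p ≠ 2)
    (hζ : IsPrimitiveRoot ζ p) (hπ : Prime (ζ - 1))
    (hcard : Nat.card (R ⧸ Ideal.span {ζ - 1}) = p)
    (hassoc : Associated ((ζ - 1) ^ (p - 1)) (p : R))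
    (hKL : ∀ u : Rˣ, (∃ n : ℤ, (p : R) ∣ (u : R) - n) → ∃ v : Rˣ, u = v ^ p)
    {x y w : R} {u : Rˣ} {m : ℕ} (hm : 1 ≤ m) (hy : ¬ (ζ - 1) ∣ y) (hw : ¬ (ζ - 1) ∣ w)
    (hxy : IsCoprime x y) (H : x ^ p + y ^ p = u * ((ζ - 1) ^ m * w) ^ p) :
    2 ≤ m ∧ ∃ (x' y' w' : R) (u' : Rˣ), ¬ (ζ - 1) ∣ x' ∧ ¬ (ζ - 1) ∣ y' ∧ ¬ (ζ - 1) ∣ w' ∧
      IsCoprime x' y' ∧ x' ^ p + y' ^ p = u' * ((ζ - 1) ^ (m - 1) * w') ^ p := by
  have hπdvd : (ζ - 1) ∣ x ^ p + y ^ p := by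
    rw [H, mul_pow, ← pow_mul]
    exact Dvd.dvd.mul_left (Dvd.dvd.mul_right
      (dvd_pow_self _ (Nat.mul_ne_zero (by omega) hp.ne_zero)) _) _
  obtain ⟨η₀, hη₀, hsq⟩ := exists_sq_dvd hp hp2 hζ hπ hcard hy hπdvd
  have hη₀p : η₀ ^ p = 1 := (mem_nthRootsFinset hp.pos 1).mp hη₀
  have hη₀u : IsUnit η₀ := IsUnit.of_pow_eq_one hη₀p hp.ne_zero
  refine descent_normalized hp hp2 hζ hπ hcard hassoc hKL hm (y := η₀ * y) (u := u) ?_ hw ?_ hsq ?_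
  · exact fun h => hy ((hη₀u.dvd_mul_left).mp h)
  · exact (isCoprime_mul_unit_left_right hη₀u x y).mpr hxy
  · rw [mul_pow, hη₀p, one_mul]; exact H

end Abstract

end Fermat.Agent.Kummer.CaseIIStep

namespace Fermat.Agent.Kummer

open Fermat.Agent.Kummer.CaseIIStep in
/-- One full step of Kummer's descent: a generalised solution `x ^ p + y ^ p = u * z ^ p` with
`λ ∤ x`, `λ ∤ y`, `λ ∣ z` (`λ = ζ - 1`) yields another one with strictly smaller `λ`-adic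
valuation of `z`. -/
theorem caseII_step {p : ℕ} [Fact p.Prime] {K : Type*} [Field K] [NumberField K]
    [IsCyclotomicExtension {p} ℚ K] {ζ : K} (hp5 : 5 ≤ p) [IsPrincipalIdealRing (𝓞 K)]
    (hKL : KummerLemmaHolds p K) (hζ : IsPrimitiveRoot ζ p) {x y z : 𝓞 K} {u : (𝓞 K)ˣ}
    (hz : z ≠ 0) (_hx : ¬ (hζ.toInteger - 1) ∣ x) (hy : ¬ (hζ.toInteger - 1) ∣ y)
    (hzl : (hζ.toInteger - 1) ∣ z) (hxy : IsCoprime x y) (H : x ^ p + y ^ p = u * z ^ p) :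
    ∃ (x' y' z' : 𝓞 K) (u' : (𝓞 K)ˣ), z' ≠ 0 ∧ ¬ (hζ.toInteger - 1) ∣ x' ∧
      ¬ (hζ.toInteger - 1) ∣ y' ∧ (hζ.toInteger - 1) ∣ z' ∧ IsCoprime x' y' ∧
      x' ^ p + y' ^ p = u' * z' ^ p ∧
      multiplicity (hζ.toInteger - 1) z' < multiplicity (hζ.toInteger - 1) z := by
  have hp : p.Prime := Fact.out
  have hp2 : p ≠ 2 := by omega
  have hζ' : IsPrimitiveRoot hζ.toInteger p := hζ.toInteger_isPrimitiveRoot
  have hπ : Prime (hζ.toInteger - 1) := hζ.zeta_sub_one_prime'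
  have hcard : Nat.card (𝓞 K ⧸ Ideal.span {hζ.toInteger - 1}) = p := by
    rw [hζ.card_quotient_toInteger_sub_one, hζ.norm_toInteger_sub_one_of_prime_ne_two' hp2]
    simp
  have hassoc : Associated ((hζ.toInteger - 1) ^ (p - 1)) (p : 𝓞 K) :=
    IsCyclotomicExtension.Rat.associated_zeta_sub_one_pow_prime p hζ
  have hfin : FiniteMultiplicity (hζ.toInteger - 1) z :=
    FiniteMultiplicity.of_not_isUnit hπ.not_isUnit hz
  obtain ⟨w, hw⟩ := pow_multiplicity_dvd (hζ.toInteger - 1) z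
  have hwπ : ¬ (hζ.toInteger - 1) ∣ w := by
    intro h
    refine hfin.not_pow_dvd_of_multiplicity_lt (lt_add_one _) ?_
    rw [pow_succ]
    conv_rhs => rw [hw]
    exact mul_dvd_mul_left _ h
  have hm1 : 1 ≤ multiplicity (hζ.toInteger - 1) z :=
    hfin.le_multiplicity_of_pow_dvd (by simpa using hzl)
  rw [hw] at H
  obtain ⟨hm2, x', y', w', u', hx', hy', hw', hxy', H'⟩ :=
    descent_abstract hp hp2 hζ' hπ hcard hassoc hKL hm1 hy hwπ hxy H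
  refine ⟨x', y', (hζ.toInteger - 1) ^ (multiplicity (hζ.toInteger - 1) z - 1) * w', u',
    ?_, hx', hy', ?_, hxy', H', ?_⟩
  · exact mul_ne_zero (pow_ne_zero _ hπ.ne_zero) (fun h => hw' (h ▸ dvd_zero _))
  · exact Dvd.dvd.mul_right (dvd_pow_self _ (by omega)) _
  · have hmult : multiplicity (hζ.toInteger - 1)
        ((hζ.toInteger - 1) ^ (multiplicity (hζ.toInteger - 1) z - 1) * w') =
        multiplicity (hζ.toInteger - 1) z - 1 := by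
      refine multiplicity_eq_of_dvd_of_not_dvd (dvd_mul_right _ _) ?_
      rw [pow_succ]
      intro h
      exact hw' ((mul_dvd_mul_iff_left (pow_ne_zero _ hπ.ne_zero)).mp h)
    rw [hmult]
    omega

end Fermat.Agent.Kummer
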