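/-
Team KUMMER, block II-A (owner: helper42).
Case II of Fermat's Last Theorem for a prime `p ≥ 5` such that `𝓞 ℚ(ζ_p)` is a PID and Kummer's
lemma holds: induction on the `λ`-adic multiplicity (with `λ = ζ - 1`) on top of the descent step,
and the wrapper from integers to `𝓞 K`.
-/
import Mathlib
import Fermat.Agent.Kummer.Defs
import Fermat.Agent.Kummer.CaseIIStep

set_option autoImplicit false

namespace Fermat.Agent.Kummer.CaseII

open NumberField

variable {p : ℕ} [hp : Fact p.Prime] {K : Type*} [Field K] [NumberField K]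
  [IsCyclotomicExtension {p} ℚ K] {ζ : K}

/-- The descent step for the generalized Fermat equation `x ^ p + y ^ p = u * z ^ p` in `𝓞 K`
(`u` a unit, `λ ∤ x`, `λ ∤ y`, `λ ∣ z`, `z ≠ 0`, `x`, `y` coprime): every such solution yields
another one with strictly smaller `λ`-adic multiplicity of `z`. -/
def DescentStep (hζ : IsPrimitiveRoot ζ p) : Prop :=
  ∀ (x y z : 𝓞 K) (u : (𝓞 K)ˣ), z ≠ 0 → ¬ (hζ.toInteger - 1) ∣ x → ¬ (hζ.toInteger - 1) ∣ y →
    (hζ.toInteger - 1) ∣ z → IsCoprime x y → x ^ p + y ^ p = u * z ^ p →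
    ∃ (x' y' z' : 𝓞 K) (u' : (𝓞 K)ˣ), z' ≠ 0 ∧ ¬ (hζ.toInteger - 1) ∣ x' ∧
      ¬ (hζ.toInteger - 1) ∣ y' ∧ (hζ.toInteger - 1) ∣ z' ∧ IsCoprime x' y' ∧
      x' ^ p + y' ^ p = u' * z' ^ p ∧
      multiplicity (hζ.toInteger - 1) z' < multiplicity (hζ.toInteger - 1) z

omit [NumberField K] [IsCyclotomicExtension {p} ℚ K] in
/-- The generalized equation has no solution, given the descent step. -/
theorem gen_of_step (hζ : IsPrimitiveRoot ζ p) (hstep : DescentStep hζ)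
    (x y z : 𝓞 K) (u : (𝓞 K)ˣ) (hz : z ≠ 0) (hx : ¬ (hζ.toInteger - 1) ∣ x)
    (hy : ¬ (hζ.toInteger - 1) ∣ y) (hzl : (hζ.toInteger - 1) ∣ z) (hxy : IsCoprime x y) :
    x ^ p + y ^ p ≠ u * z ^ p := by
  intro H
  -- strong induction on the multiplicity of `λ` in `z`
  suffices h : ∀ n : ℕ, ∀ (x y z : 𝓞 K) (u : (𝓞 K)ˣ), z ≠ 0 → ¬ (hζ.toInteger - 1) ∣ x →
      ¬ (hζ.toInteger - 1) ∣ y → (hζ.toInteger - 1) ∣ z → IsCoprime x y →
      x ^ p + y ^ p = u * z ^ p → multiplicity (hζ.toInteger - 1) z = n → False from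
    h _ x y z u hz hx hy hzl hxy H rfl
  intro n
  induction n using Nat.strong_induction_on with
  | _ n ih =>
    intro x y z u hz hx hy hzl hxy H hn
    obtain ⟨x', y', z', u', hz', hx', hy', hzl', hxy', H', hlt⟩ := hstep x y z u hz hx hy hzl hxy H
    exact ih _ (hn ▸ hlt) x' y' z' u' hz' hx' hy' hzl' hxy' H' rfl

/-- From the generalized statement in `𝓞 K` to the integers. -/
theorem int_of_gen (hζ : IsPrimitiveRoot ζ p)
    (hgen : ∀ (x y z : 𝓞 K) (u : (𝓞 K)ˣ), z ≠ 0 → ¬ (hζ.toInteger - 1) ∣ x →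
      ¬ (hζ.toInteger - 1) ∣ y → (hζ.toInteger - 1) ∣ z → IsCoprime x y →
      x ^ p + y ^ p ≠ u * z ^ p)
    {a b c : ℤ} (hab : IsCoprime a b) (hc : c ≠ 0) (hpc : (p : ℤ) ∣ c)
    (h : a ^ p + b ^ p = c ^ p) : False := by
  have hp0 : p ≠ 0 := hp.out.ne_zero
  have hpp : Prime (p : ℤ) := Nat.prime_iff_prime_int.mp hp.out
  -- `p ∤ a` and `p ∤ b`
  have hpa : ¬ (p : ℤ) ∣ a := by
    intro hpa
    have hpb : (p : ℤ) ∣ b := by
      have h1 : (p : ℤ) ∣ b ^ p := by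
        have : b ^ p = c ^ p - a ^ p := by linarith
        rw [this]
        exact dvd_sub (dvd_pow hpc hp0) (dvd_pow hpa hp0)
      exact hpp.dvd_of_dvd_pow h1
    exact hpp.not_isUnit (hab.isUnit_of_dvd' hpa hpb)
  have hpb : ¬ (p : ℤ) ∣ b := by
    intro hpb
    have hpa' : (p : ℤ) ∣ a := by
      have h1 : (p : ℤ) ∣ a ^ p := by
        have : a ^ p = c ^ p - b ^ p := by linarith
        rw [this]
        exact dvd_sub (dvd_pow hpc hp0) (dvd_pow hpb hp0)
      exact hpp.dvd_of_dvd_pow h1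
    exact hpa hpa'
  refine hgen (a : 𝓞 K) (b : 𝓞 K) (c : 𝓞 K) 1 (by exact_mod_cast hc) ?_ ?_ ?_ ?_ ?_
  · rwa [IsCyclotomicExtension.Rat.zeta_sub_one_dvd_intCast_iff' p hζ]
  · rwa [IsCyclotomicExtension.Rat.zeta_sub_one_dvd_intCast_iff' p hζ]
  · rwa [IsCyclotomicExtension.Rat.zeta_sub_one_dvd_intCast_iff' p hζ]
  · exact IsCoprime.intCast hab
  · simp only [Units.val_one, one_mul]
    exact_mod_cast h

end Fermat.Agent.Kummer.CaseII

namespace Fermat.Agent.Kummer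

open NumberField

/-- **Case II** of Fermat's Last Theorem for a prime `p ≥ 5` such that the ring of integers of the
`p`-th cyclotomic field is a PID and Kummer's lemma holds. -/
theorem caseII {p : ℕ} [Fact p.Prime] (hp5 : 5 ≤ p) (K : Type*) [Field K] [NumberField K]
    [IsCyclotomicExtension {p} ℚ K] [IsPrincipalIdealRing (𝓞 K)] (hKL : KummerLemmaHolds p K)
    {a b c : ℤ} (hab : IsCoprime a b) (hc : c ≠ 0) (hpc : (p : ℤ) ∣ c)
    (h : a ^ p + b ^ p = c ^ p) : False :=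
  have hζ := IsCyclotomicExtension.zeta_spec p ℚ K
  CaseII.int_of_gen hζ
    (CaseII.gen_of_step hζ fun _ _ _ _ hz hx hy hzl hxy H =>
      caseII_step hp5 hKL hζ hz hx hy hzl hxy H)
    hab hc hpc h

end Fermat.Agent.Kummer
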