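/-
Team KUMMER, block II-A (owner: helper42).
Front part of the Case II descent step, in an abstract domain `R` with a primitive `p`-th root of
unity `ζ` such that `ζ - 1` is prime and `R ⧸ (ζ - 1)` has `p` elements: some factor `x + η * y`
of `x ^ p + y ^ p` is divisible by `(ζ - 1) ^ 2`.
-/
import Mathlib
import Fermat.Agent.Kummer.Defs

set_option autoImplicit false

namespace Fermat.Agent.Kummer.CaseIIFront

open Polynomial

variable {R : Type*} [CommRing R] [IsDomain R] {p : ℕ} {ζ : R}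

/-- If `ζ - 1` divides one factor `x + η₀ * y`, it divides all of them. -/
theorem dvd_add_mul_of_dvd (hp : p.Prime) (hζ : IsPrimitiveRoot ζ p) {x y η₀ η : R}
    (hη₀ : η₀ ∈ nthRootsFinset p (1 : R)) (hη : η ∈ nthRootsFinset p (1 : R))
    (h : (ζ - 1) ∣ x + η₀ * y) : (ζ - 1) ∣ x + η * y := by
  have h1 : (ζ - 1) ∣ η - η₀ := hζ.sub_one_dvd_sub hp hη hη₀
  have h2 : x + η * y = (x + η₀ * y) + (η - η₀) * y := by ring
  rw [h2]
  exact dvd_add h (Dvd.dvd.mul_right h1 y)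

/-- `ζ - 1` divides every factor `x + η * y` as soon as it divides `x ^ p + y ^ p`. -/
theorem dvd_add_mul (hp : p.Prime) (hζ : IsPrimitiveRoot ζ p) (hπ : Prime (ζ - 1)) {x y : R}
    (h : (ζ - 1) ∣ x ^ p + y ^ p) (hodd : p ≠ 2) {η : R} (hη : η ∈ nthRootsFinset p (1 : R)) :
    (ζ - 1) ∣ x + η * y := by
  rw [hζ.pow_add_pow_eq_prod_add_mul x y (hp.odd_of_ne_two hodd)] at h
  obtain ⟨η₀, hη₀, hdvd⟩ := (Prime.dvd_finsetProd_iff hπ _).1 h
  exact dvd_add_mul_of_dvd hp hζ hη₀ hη hdvd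

/-- Two distinct factors cannot both be divisible by `(ζ - 1) ^ 2` when `ζ - 1 ∤ y`. -/
theorem eq_of_sq_dvd_of_sq_dvd (hp : p.Prime) (hζ : IsPrimitiveRoot ζ p) (hπ : Prime (ζ - 1))
    {x y η₁ η₂ : R} (hy : ¬ (ζ - 1) ∣ y)
    (hη₁ : η₁ ∈ nthRootsFinset p (1 : R)) (hη₂ : η₂ ∈ nthRootsFinset p (1 : R))
    (h₁ : (ζ - 1) ^ 2 ∣ x + η₁ * y) (h₂ : (ζ - 1) ^ 2 ∣ x + η₂ * y) : η₁ = η₂ := by
  by_contra hne
  obtain ⟨u, hu⟩ := hζ.nthRootsFinset_pairwise_associated_sub_one_sub_of_prime hp hη₁ hη₂ hne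
  have h3 : (ζ - 1) ^ 2 ∣ (η₁ - η₂) * y := by
    have : (η₁ - η₂) * y = (x + η₁ * y) - (x + η₂ * y) := by ring
    rw [this]
    exact dvd_sub h₁ h₂
  rw [← hu, pow_two, mul_assoc, mul_dvd_mul_iff_left hπ.ne_zero] at h3
  exact hy ((Units.dvd_mul_left).1 h3)

/-- **Pigeonhole**: some factor `x + η * y` is divisible by `(ζ - 1) ^ 2`. -/
theorem exists_sq_dvd (hp : p.Prime) (hζ : IsPrimitiveRoot ζ p) (hπ : Prime (ζ - 1))
    (hcard : Nat.card (R ⧸ Ideal.span {ζ - 1}) = p) {x y : R} (hy : ¬ (ζ - 1) ∣ y)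
    (h : (ζ - 1) ∣ x ^ p + y ^ p) (hodd : p ≠ 2) :
    ∃ η ∈ nthRootsFinset p (1 : R), (ζ - 1) ^ 2 ∣ x + η * y := by
  classical
  have hall : ∀ η ∈ nthRootsFinset p (1 : R), (ζ - 1) ∣ x + η * y :=
    fun η hη => dvd_add_mul hp hζ hπ h hodd hη
  choose! q hq using hall
  have : Finite (R ⧸ Ideal.span {ζ - 1}) :=
    Nat.finite_of_card_ne_zero (hcard ▸ hp.ne_zero)
  let f : (nthRootsFinset p (1 : R)) → R ⧸ Ideal.span {ζ - 1} :=
    fun η => Ideal.Quotient.mk _ (q η)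
  have hinj : Function.Injective f := by
    intro η₁ η₂ h12
    have h12' : (ζ - 1) ∣ q η₁ - q η₂ := by
      have := (Ideal.Quotient.eq).1 h12
      exact Ideal.mem_span_singleton.1 this
    by_contra hne
    have hne' : (η₁ : R) ≠ η₂ := fun hh => hne (Subtype.ext hh)
    obtain ⟨u, hu⟩ := hζ.nthRootsFinset_pairwise_associated_sub_one_sub_of_prime hp
      η₁.2 η₂.2 hne'
    have h3 : (ζ - 1) * (q η₁ - q η₂) = (ζ - 1) * u * y := by
      have e1 := hq η₁ η₁.2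
      have e2 := hq η₂ η₂.2
      have : (ζ - 1) * (q η₁ - q η₂) = (x + η₁ * y) - (x + η₂ * y) := by
        rw [e1, e2]; ring
      rw [this, hu]; ring
    rw [mul_assoc, mul_right_inj' hπ.ne_zero] at h3
    rw [h3] at h12'
    exact hy ((Units.dvd_mul_left).1 h12')
  have hcard' : Nat.card (R ⧸ Ideal.span {ζ - 1}) ≤ Nat.card (nthRootsFinset p (1 : R)) := by
    rw [hcard, Nat.card_eq_fintype_card, Fintype.card_coe, hζ.card_nthRootsFinset]
  obtain ⟨η, hη⟩ := (hinj.bijective_of_nat_card_le hcard').2 0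
  refine ⟨η, η.2, ?_⟩
  have h0 : (ζ - 1) ∣ q η := by
    have := (Ideal.Quotient.eq_zero_iff_mem).1 hη
    exact Ideal.mem_span_singleton.1 this
  rw [hq η η.2, pow_two]
  exact mul_dvd_mul_left _ h0

end Fermat.Agent.Kummer.CaseIIFront
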