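/-
Team KUMMER, block CycloUnits (owner: helper69).
The cyclotomic units `ζ` and `ε_a = 1 + ζ + ⋯ + ζ^(a-1)` of the `p`-th cyclotomic field,
bundled as elements of `(𝓞 K)ˣ`.
-/
import Fermat.Agent.Kummer.Defs

set_option autoImplicit false

open NumberField

namespace Fermat.Agent.Kummer.CycloUnits

variable {p : ℕ} [hp : Fact p.Prime] {K : Type*} [Field K] {ζ : K}

/-- The primitive root `ζ` as a unit of `𝓞 K`. -/
noncomputable def zetaUnit (hζ : IsPrimitiveRoot ζ p) : (𝓞 K)ˣ :=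
  (hζ.toInteger_isPrimitiveRoot.isUnit hp.out.ne_zero).unit

@[simp]
theorem coe_zetaUnit (hζ : IsPrimitiveRoot ζ p) :
    ((zetaUnit hζ : (𝓞 K)ˣ) : 𝓞 K) = hζ.toInteger :=
  IsUnit.unit_spec _

theorem zetaUnit_pow_prime (hζ : IsPrimitiveRoot ζ p) : zetaUnit hζ ^ p = 1 := by
  apply Units.ext
  rw [Units.val_pow_eq_pow_val, coe_zetaUnit, Units.val_one]
  exact hζ.toInteger_isPrimitiveRoot.pow_eq_one

theorem coprime_of_not_dvd {a : ℕ} (ha : ¬ p ∣ a) : a.Coprime p :=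
  ((Nat.Prime.coprime_iff_not_dvd hp.out).2 ha).symm

theorem isUnit_geom_sum (hζ : IsPrimitiveRoot ζ p) {a : ℕ} (ha : ¬ p ∣ a) :
    IsUnit (∑ i ∈ Finset.range a, hζ.toInteger ^ i) :=
  hζ.toInteger_isPrimitiveRoot.geom_sum_isUnit hp.out.two_le (coprime_of_not_dvd ha)

/-- The cyclotomic unit `ε_a = 1 + ζ + ⋯ + ζ^(a-1)` (for `p ∤ a`) as a unit of `𝓞 K`. -/
noncomputable def epsUnit (hζ : IsPrimitiveRoot ζ p) (a : ℕ) (ha : ¬ p ∣ a) : (𝓞 K)ˣ :=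
  (isUnit_geom_sum hζ ha).unit

@[simp]
theorem coe_epsUnit (hζ : IsPrimitiveRoot ζ p) (a : ℕ) (ha : ¬ p ∣ a) :
    ((epsUnit hζ a ha : (𝓞 K)ˣ) : 𝓞 K) = ∑ i ∈ Finset.range a, hζ.toInteger ^ i :=
  IsUnit.unit_spec _

/-- `ε_a * (ζ - 1) = ζ ^ a - 1`. -/
theorem coe_epsUnit_mul (hζ : IsPrimitiveRoot ζ p) (a : ℕ) (ha : ¬ p ∣ a) :
    ((epsUnit hζ a ha : (𝓞 K)ˣ) : 𝓞 K) * (hζ.toInteger - 1) = hζ.toInteger ^ a - 1 := by
  rw [coe_epsUnit, geom_sum_mul]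

/-- `1 + ζ` is a unit of `𝓞 K` for an odd prime `p`. -/
theorem isUnit_one_add_zeta (hζ : IsPrimitiveRoot ζ p) (hp2 : p ≠ 2) :
    IsUnit (1 + hζ.toInteger) := by
  have h2 : ¬ p ∣ 2 := fun h => hp2 ((Nat.prime_dvd_prime_iff_eq hp.out Nat.prime_two).1 h)
  have := isUnit_geom_sum hζ h2
  simpa [Finset.sum_range_succ] using this

theorem coe_epsUnit_two (hζ : IsPrimitiveRoot ζ p) (h2 : ¬ p ∣ 2) :
    ((epsUnit hζ 2 h2 : (𝓞 K)ˣ) : 𝓞 K) = 1 + hζ.toInteger := by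
  simp [Finset.sum_range_succ]

theorem epsUnit_one (hζ : IsPrimitiveRoot ζ p) (h1 : ¬ p ∣ 1) : epsUnit hζ 1 h1 = 1 := by
  apply Units.ext
  simp

end Fermat.Agent.Kummer.CycloUnits
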