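import Fermat.Agent.Kummer.Defs

/-!
# Case I of Fermat's Last Theorem via Sophie Germain's theorem (team KUMMER, owner helper69)

Elementary argument in `ℤ` with an auxiliary prime `q` satisfying `SGCondition p q`.
-/

set_option autoImplicit false

namespace Fermat.Agent.Kummer.SophieGermain

/-- The cofactor `(y ^ p + z ^ p) / (y + z)` for odd `p`. -/
def sgPhi (p : ℕ) (y z : ℤ) : ℤ := ∑ i ∈ Finset.range p, y ^ i * (-z) ^ (p - 1 - i)

theorem sgPhi_mul (p : ℕ) (hp : Odd p) (y z : ℤ) : sgPhi p y z * (y + z) = y ^ p + z ^ p := by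
  have h := Commute.geom_sum₂_mul (Commute.all y (-z)) p
  rw [hp.neg_pow] at h
  rw [sgPhi]
  linear_combination h

theorem sgPhi_congr (p : ℕ) (hp : 0 < p) (y z : ℤ) :
    ∃ k : ℤ, sgPhi p y z = (p : ℤ) * y ^ (p - 1) + (y + z) * k := by
  have hdvd : (y + z) ∣ sgPhi p y z - (p : ℤ) * y ^ (p - 1) := by
    have h1 : ((p : ℤ) * y ^ (p - 1)) = ∑ i ∈ Finset.range p, y ^ i * y ^ (p - 1 - i) := by
      rw [Finset.sum_congr rfl (fun i hi => ?_), Finset.sum_const, Finset.card_range, nsmul_eq_mul]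
      rw [← pow_add]
      congr 1
      have := Finset.mem_range.1 hi
      omega
    rw [h1, sgPhi, ← Finset.sum_sub_distrib]
    refine Finset.dvd_sum fun i _ => ?_
    rw [← mul_sub]
    refine Dvd.dvd.mul_left ?_ _
    have h2 : (-z - y) ∣ (-z) ^ (p - 1 - i) - y ^ (p - 1 - i) := sub_dvd_pow_sub_pow _ _ _
    have h3 : (y + z) ∣ (-z - y) := ⟨-1, by ring⟩
    exact h3.trans h2
  obtain ⟨k, hk⟩ := hdvd
  exact ⟨k, by linarith⟩

theorem sgPhi_isCoprime {p : ℕ} (hp : p.Prime) {y z : ℤ} (hyz : IsCoprime y z)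
    (hpyz : ¬ (p : ℤ) ∣ y + z) : IsCoprime (y + z) (sgPhi p y z) := by
  obtain ⟨k, hk⟩ := sgPhi_congr p hp.pos y z
  rw [hk]
  have h1 : IsCoprime (y + z) y := by
    have : IsCoprime z y := hyz.symm
    simpa [add_comm] using (IsCoprime.add_mul_left_left this 1 : IsCoprime (z + y * 1) y)
  have h2 : IsCoprime (y + z) ((p : ℤ)) :=
    ((Nat.prime_iff_prime_int.1 hp).irreducible.coprime_iff_not_dvd.2 hpyz).symm
  have h3 : IsCoprime (y + z) ((p : ℤ) * y ^ (p - 1)) := h2.mul_right h1.pow_right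
  exact IsCoprime.add_mul_left_right h3 k

/-- From `x ^ p + y ^ p + z ^ p = 0` with `p ∤ x`, the factors `y + z` and `sgPhi p y z` are
both `p`-th powers. -/
theorem sg_exists_pow {p : ℕ} (hp : p.Prime) (hodd : Odd p) {x y z : ℤ}
    (h : x ^ p + y ^ p + z ^ p = 0) (hyz : IsCoprime y z) (hpx : ¬ (p : ℤ) ∣ x) :
    (∃ a : ℤ, y + z = a ^ p) ∧ ∃ α : ℤ, sgPhi p y z = α ^ p := by
  have hmul : (y + z) * sgPhi p y z = (-x) ^ p := by
    rw [mul_comm, sgPhi_mul p hodd, hodd.neg_pow]; linarith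
  have hpyz : ¬ (p : ℤ) ∣ y + z := by
    intro hdvd
    have h1 : (p : ℤ) ∣ (-x) ^ p := hmul ▸ Dvd.dvd.mul_right hdvd _
    have h2 := (Nat.prime_iff_prime_int.1 hp).dvd_of_dvd_pow h1
    exact hpx ((dvd_neg).1 h2)
  have hcop := sgPhi_isCoprime hp hyz hpyz
  exact Int.eq_pow_of_mul_eq_pow_odd hcop hodd hmul

theorem sg_core {p q : ℕ} (hp : p.Prime) (hodd : Odd p) [Fact q.Prime]
    (hA : ∀ x y z : ZMod q, x ^ p + y ^ p + z ^ p = 0 → x = 0 ∨ y = 0 ∨ z = 0)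
    (hB : ∀ x : ZMod q, x ^ p ≠ (p : ZMod q))
    {x y z : ℤ} (h : x ^ p + y ^ p + z ^ p = 0)
    (hxy : IsCoprime x y) (hyz : IsCoprime y z) (hzx : IsCoprime z x)
    (hpx : ¬ (p : ℤ) ∣ x) (hpy : ¬ (p : ℤ) ∣ y) (hpz : ¬ (p : ℤ) ∣ z)
    (hqx : (q : ℤ) ∣ x) : False := by
  have hq : q.Prime := Fact.out
  have hqint : Prime (q : ℤ) := Nat.prime_iff_prime_int.1 hq
  obtain ⟨⟨a, ha⟩, ⟨α, hα⟩⟩ := sg_exists_pow hp hodd h hyz hpx
  obtain ⟨⟨b, hb⟩, -⟩ := sg_exists_pow hp hodd (x := y) (y := z) (z := x) (by linarith) hzx hpy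
  obtain ⟨⟨c, hc⟩, ⟨γ, hγ⟩⟩ := sg_exists_pow hp hodd (x := z) (y := x) (z := y) (by linarith) hxy hpz
  have hx0 : (x : ZMod q) = 0 := (ZMod.intCast_zmod_eq_zero_iff_dvd x q).2 hqx
  -- `q ∤ y`, `q ∤ z`
  have hqy : ¬ (q : ℤ) ∣ y := fun hd => hqint.not_isUnit (hxy.isUnit_of_dvd' hqx hd)
  have hqz : ¬ (q : ℤ) ∣ z := fun hd => hqint.not_isUnit (hzx.isUnit_of_dvd' hd hqx)
  have hy0 : (y : ZMod q) ≠ 0 := fun h0 => hqy ((ZMod.intCast_zmod_eq_zero_iff_dvd y q).1 h0)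
  -- the relation `b ^ p + c ^ p + (-a) ^ p = 2 * x`
  have hrel : (b : ZMod q) ^ p + (c : ZMod q) ^ p + (-(a : ZMod q)) ^ p = 0 := by
    have h1 : b ^ p + c ^ p + (-a) ^ p = 2 * x := by
      rw [hodd.neg_pow, ← ha, ← hb, ← hc]; ring
    have h2 := congrArg (Int.cast : ℤ → ZMod q) h1
    push_cast at h2
    rw [h2, hx0, mul_zero]
  have hqa : (a : ZMod q) = 0 := by
    rcases hA _ _ _ hrel with hb0 | hc0 | ha0
    · exfalso
      have hd : (q : ℤ) ∣ b := (ZMod.intCast_zmod_eq_zero_iff_dvd b q).1 hb0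
      have hd' : (q : ℤ) ∣ z + x := hb ▸ dvd_pow hd hp.ne_zero
      exact hqz ((dvd_add_left hqx).1 hd')
    · exfalso
      have hd : (q : ℤ) ∣ c := (ZMod.intCast_zmod_eq_zero_iff_dvd c q).1 hc0
      have hd' : (q : ℤ) ∣ x + y := hc ▸ dvd_pow hd hp.ne_zero
      exact hqy ((dvd_add_right hqx).1 hd')
    · exact neg_eq_zero.1 ha0
  -- `z = -y` in `ZMod q`
  have hzy : (z : ZMod q) = -(y : ZMod q) := by
    have h1 := congrArg (Int.cast : ℤ → ZMod q) ha
    push_cast at h1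
    rw [hqa, zero_pow hp.ne_zero] at h1
    exact eq_neg_of_add_eq_zero_right h1
  -- `α ^ p = p * y ^ (p - 1)` in `ZMod q`
  have hα' : (α : ZMod q) ^ p = (p : ZMod q) * (y : ZMod q) ^ (p - 1) := by
    have h1 := congrArg (Int.cast : ℤ → ZMod q) hα
    rw [sgPhi] at h1
    push_cast at h1
    rw [← h1, hzy, neg_neg]
    rw [Finset.sum_congr rfl (fun i hi => ?_), Finset.sum_const, Finset.card_range, nsmul_eq_mul]
    rw [← pow_add]
    congr 1
    have := Finset.mem_range.1 hi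
    omega
  -- `γ ^ p = y ^ (p - 1)` in `ZMod q`
  have hγ' : (γ : ZMod q) ^ p = (y : ZMod q) ^ (p - 1) := by
    have h1 := congrArg (Int.cast : ℤ → ZMod q) hγ
    rw [sgPhi] at h1
    push_cast at h1
    rw [← h1, hx0]
    rw [Finset.sum_eq_single 0]
    · rw [pow_zero, one_mul, Nat.sub_zero, Even.neg_pow (Nat.Prime.even_sub_one hp (by
        rintro rfl; exact (by decide : ¬ Odd 2) hodd))]
    · intro i _ hi
      rw [zero_pow hi, zero_mul]
    · intro h0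
      exact absurd (Finset.mem_range.2 hp.pos) h0
  have hγ0 : (γ : ZMod q) ≠ 0 := by
    intro h0
    rw [h0, zero_pow hp.ne_zero] at hγ'
    exact hy0 (pow_eq_zero_iff (n := p - 1) (by have := hp.two_le; omega) |>.1 hγ'.symm)
  refine hB ((α : ZMod q) / (γ : ZMod q)) ?_
  rw [div_pow, hα', hγ', mul_div_assoc, div_self (pow_ne_zero _ hy0), mul_one]

/-- **Sophie Germain's theorem** (generalised form with an auxiliary prime `q`). -/
theorem sophie_germain {p q : ℕ} (hp : p.Prime) (hodd : Odd p) [Fact q.Prime]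
    (hA : ∀ x y z : ZMod q, x ^ p + y ^ p + z ^ p = 0 → x = 0 ∨ y = 0 ∨ z = 0)
    (hB : ∀ x : ZMod q, x ^ p ≠ (p : ZMod q))
    {x y z : ℤ} (h : x ^ p + y ^ p + z ^ p = 0)
    (hxy : IsCoprime x y) (hyz : IsCoprime y z) (hzx : IsCoprime z x) :
    (p : ℤ) ∣ x * y * z := by
  by_contra hcon
  have hpint : Prime (p : ℤ) := Nat.prime_iff_prime_int.1 hp
  have hpx : ¬ (p : ℤ) ∣ x := fun hd => hcon (Dvd.dvd.mul_right (Dvd.dvd.mul_right hd _) _)
  have hpy : ¬ (p : ℤ) ∣ y := fun hd => hcon (Dvd.dvd.mul_right (Dvd.dvd.mul_left hd _) _)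
  have hpz : ¬ (p : ℤ) ∣ z := fun hd => hcon (Dvd.dvd.mul_left hd _)
  have h0 : (x : ZMod q) ^ p + (y : ZMod q) ^ p + (z : ZMod q) ^ p = 0 := by
    have := congrArg (Int.cast : ℤ → ZMod q) h
    push_cast at this
    exact this
  rcases hA _ _ _ h0 with hx0 | hy0 | hz0
  · exact sg_core hp hodd hA hB h hxy hyz hzx hpx hpy hpz
      ((ZMod.intCast_zmod_eq_zero_iff_dvd x q).1 hx0)
  · exact sg_core hp hodd hA hB (x := y) (y := z) (z := x) (by linarith) hyz hzx hxy hpy hpz hpx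
      ((ZMod.intCast_zmod_eq_zero_iff_dvd y q).1 hy0)
  · exact sg_core hp hodd hA hB (x := z) (y := x) (z := y) (by linarith) hzx hxy hyz hpz hpx hpy
      ((ZMod.intCast_zmod_eq_zero_iff_dvd z q).1 hz0)

/-- Pairwise coprimality from `IsCoprime a b` and `a ^ p + b ^ p = c ^ p`. -/
theorem isCoprime_of_fermat_eq {p : ℕ} (hp : p ≠ 0) {a b c : ℤ} (h : a ^ p + b ^ p = c ^ p)
    (hab : IsCoprime a b) : IsCoprime a c ∧ IsCoprime b c := by
  have hac : IsCoprime a (c ^ p) := by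
    rw [← h]
    have h1 : IsCoprime a (b ^ p) := hab.pow_right
    have h2 : a ^ p = a * a ^ (p - 1) := by
      rw [← pow_succ']; congr 1; omega
    rw [h2, add_comm]
    exact IsCoprime.add_mul_left_right h1 (a ^ (p - 1))
  have hbc : IsCoprime b (c ^ p) := by
    rw [← h]
    have h1 : IsCoprime b (a ^ p) := hab.symm.pow_right
    have : b ^ p = b * b ^ (p - 1) := by
      rw [← pow_succ']; congr 1; omega
    rw [this]
    exact IsCoprime.add_mul_left_right h1 (b ^ (p - 1))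
  exact ⟨(IsCoprime.pow_right_iff (Nat.pos_of_ne_zero hp)).1 hac,
    (IsCoprime.pow_right_iff (Nat.pos_of_ne_zero hp)).1 hbc⟩

end Fermat.Agent.Kummer.SophieGermain

namespace Fermat.Agent.Kummer

open SophieGermain in
/-- **Case I of FLT** for an odd prime `p` admitting a Sophie Germain auxiliary prime `q`:
if `a ^ p + b ^ p = c ^ p` with `a`, `b` coprime then `p ∣ a * b * c`. -/
theorem caseI {p q : ℕ} (hp : p.Prime) (hp2 : p ≠ 2) (hq : SGCondition p q) {a b c : ℤ}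
    (hab : IsCoprime a b) (h : a ^ p + b ^ p = c ^ p) : (p : ℤ) ∣ a * b * c := by
  obtain ⟨hqp, hA, hB⟩ := hq
  have : Fact q.Prime := ⟨hqp⟩
  have hodd : Odd p := hp.odd_of_ne_two hp2
  obtain ⟨hac, hbc⟩ := isCoprime_of_fermat_eq hp.ne_zero h hab
  have h' : a ^ p + b ^ p + (-c) ^ p = 0 := by rw [hodd.neg_pow]; linarith
  have key : (p : ℤ) ∣ a * b * (-c) :=
    sophie_germain hp hodd hA hB h' hab hbc.neg_right hac.symm.neg_left
  simpa using key

end Fermat.Agent.Kummer
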