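/-
Team KUMMER, block V (owner: helper10).
Wiring: Sophie Germain (case I) + Kummer descent (case II) give Fermat's Last Theorem for a
prime exponent `p ≥ 5` as soon as the ring of integers of `ℚ(ζ_p)` is a PID and Kummer's lemma
holds for `p`.
-/
import Fermat.Agent.Kummer.Defs
import Fermat.Agent.Kummer.SophieGermain
import Fermat.Agent.Kummer.CaseIIB.Main

set_option autoImplicit false

namespace Fermat.Agent.Kummer

open NumberField

namespace FLTSmall

/-- From `a ^ p + b ^ p = c ^ p` with `a`, `b` coprime, also `c`, `b` are coprime. -/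
theorem isCoprime_of_eq {p : ℕ} (hp : p ≠ 0) {a b c : ℤ} (hab : IsCoprime a b)
    (h : a ^ p + b ^ p = c ^ p) : IsCoprime c b := by
  have h1 : IsCoprime (a ^ p) b := hab.pow_left
  have h2 : IsCoprime (a ^ p + b * b ^ (p - 1)) b := h1.add_mul_left_left _
  have h3 : b * b ^ (p - 1) = b ^ p := by
    rw [← pow_succ', Nat.sub_add_cancel (Nat.pos_of_ne_zero hp)]
  rw [h3, h] at h2
  exact (IsCoprime.pow_left_iff (Nat.pos_of_ne_zero hp)).mp h2

end FLTSmall

/-- Fermat's Last Theorem for the prime exponent `p ≥ 5` (coprime integer solutions), given a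
Sophie Germain auxiliary prime `q`, principality of the ring of integers of `K = ℚ(ζ_p)` and
Kummer's lemma for `p`. -/
theorem fltCoprime_of {p q : ℕ} [Fact p.Prime] (hp5 : 5 ≤ p) (hq : SGCondition p q)
    (K : Type*) [Field K] [NumberField K] [IsCyclotomicExtension {p} ℚ K]
    [IsPrincipalIdealRing (𝓞 K)] (hKL : KummerLemmaHolds p K) : FLTCoprime p := by
  intro a b c ha hb hc hab h
  have hp : p.Prime := Fact.out
  have hodd : Odd p := hp.odd_of_ne_two (by omega)
  have hp0 : p ≠ 0 := hp.ne_zero
  have hdvd : (p : ℤ) ∣ a * b * c := caseI hp (by omega) hq hab h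
  have hpZ : Prime (p : ℤ) := Nat.prime_iff_prime_int.mp hp
  rcases hpZ.dvd_or_dvd hdvd with hab' | hpc
  · rcases hpZ.dvd_or_dvd hab' with hpa | hpb
    · -- `p ∣ a`: use `c ^ p + (-b) ^ p = a ^ p`
      have hcb : IsCoprime c b := FLTSmall.isCoprime_of_eq hp0 hab h
      have h' : c ^ p + (-b) ^ p = a ^ p := by
        rw [hodd.neg_pow]; linarith
      exact caseII_B hp5 K hKL hcb.neg_right ha hpa h'
    · -- `p ∣ b`: use `c ^ p + (-a) ^ p = b ^ p`
      have hca : IsCoprime c a :=
        FLTSmall.isCoprime_of_eq hp0 hab.symm (by rw [add_comm]; exact h)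
      have h' : c ^ p + (-a) ^ p = b ^ p := by
        rw [hodd.neg_pow]; linarith
      exact caseII_B hp5 K hKL hca.neg_right hb hpb h'
  · exact caseII_B hp5 K hKL hab hc hpc h

end Fermat.Agent.Kummer
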