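/-
Team KUMMER, block UnitsModPow (owner: helper9).

Dirichlet-counting step of Kummer's lemma: in `K = ℚ(ζ_p)` (`p` an odd prime) the unit group
`E = (𝓞 K)ˣ` is generated by `(p - 1) / 2` elements (a generator of the torsion and a
fundamental system), so a family of `(p - 1) / 2` units that is independent modulo the subgroup
of units congruent to a rational integer modulo `p` forces that subgroup to be `E ^ p`.
-/
import Fermat.Agent.Kummer.Defs

set_option autoImplicit false

namespace Fermat.Agent.Kummer.UnitsModPow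

open NumberField

/-- In a commutative group, a product of integer powers of a fixed element is the power by the
sum of the exponents. -/
theorem prod_zpow_eq_zpow_sum {E ι : Type*} [CommGroup E] (s : Finset ι) (g : E) (f : ι → ℤ) :
    ∏ i ∈ s, g ^ f i = g ^ ∑ i ∈ s, f i := by
  classical
  induction s using Finset.induction_on with
  | empty => simp
  | insert a s ha ih => rw [Finset.prod_insert ha, Finset.sum_insert ha, ih, zpow_add]

/-- If all the exponents are divisible by `p`, the product is a `p`-th power. -/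
theorem exists_eq_pow_of_dvd {E : Type*} [CommGroup E] {p k : ℕ} (x : Fin k → E) (f : Fin k → ℤ)
    (hf : ∀ j, (p : ℤ) ∣ f j) : ∃ w : E, ∏ j, x j ^ f j = w ^ p := by
  choose m hm using hf
  refine ⟨∏ j, x j ^ m j, ?_⟩
  rw [← Finset.prod_pow]
  refine Finset.prod_congr rfl fun j _ => ?_
  rw [hm j, mul_comm, zpow_mul, zpow_natCast]

/-- Abstract counting core: `E` a commutative group generated by `k` elements, `H` a subset
containing `1` and stable under multiplication by `p`-th powers, `u` a family of `k` elements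
independent modulo `H`.  Then every element of `H` is a `p`-th power. -/
theorem core {E : Type*} [CommGroup E] {p k : ℕ} [Fact p.Prime] (H : Set E)
    (hone : (1 : E) ∈ H) (hmul : ∀ x ∈ H, ∀ w : E, x * w ^ p ∈ H)
    (g : Fin k → E) (hg : ∀ x : E, ∃ e : Fin k → ℤ, x = ∏ j, g j ^ e j)
    (u : Fin k → E) (hu : ∀ e : Fin k → ℤ, (∏ i, u i ^ e i) ∈ H → ∀ i, (p : ℤ) ∣ e i) :
    ∀ v ∈ H, ∃ w : E, v = w ^ p := by
  classical
  choose a ha using fun i => hg (u i)
  have key : ∀ e : Fin k → ℤ, ∏ i, u i ^ e i = ∏ j, g j ^ (∑ i, e i * a i j) := by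
    intro e
    calc ∏ i, u i ^ e i = ∏ i, ∏ j, g j ^ (e i * a i j) := by
          refine Finset.prod_congr rfl fun i _ => ?_
          conv_lhs => rw [ha i]
          rw [← Finset.prod_zpow]
          refine Finset.prod_congr rfl fun j _ => ?_
          rw [← zpow_mul, mul_comm]
      _ = ∏ j, ∏ i, g j ^ (e i * a i j) := Finset.prod_comm
      _ = ∏ j, g j ^ (∑ i, e i * a i j) := by
          refine Finset.prod_congr rfl fun j _ => ?_
          exact prod_zpow_eq_zpow_sum _ _ _
  let A : Matrix (Fin k) (Fin k) (ZMod p) := fun i j => (a i j : ZMod p)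
  have hcast : ∀ (c : Fin k → ZMod p) (j : Fin k),
      ((∑ i, ((c i).val : ℤ) * a i j : ℤ) : ZMod p) = Matrix.vecMul c A j := by
    intro c j
    simp only [Matrix.vecMul, dotProduct, A, Int.cast_sum, Int.cast_mul, Int.cast_natCast,
      ZMod.natCast_zmod_val]
  have hker : ∀ c : Fin k → ZMod p, Matrix.vecMul c A = 0 → c = 0 := by
    intro c hc
    have hdvd : ∀ j, (p : ℤ) ∣ ∑ i, ((c i).val : ℤ) * a i j := by
      intro j
      rw [← ZMod.intCast_zmod_eq_zero_iff_dvd, hcast, hc]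
      rfl
    obtain ⟨w, hw⟩ := exists_eq_pow_of_dvd g _ hdvd
    have hmem : (∏ i, u i ^ ((c i).val : ℤ)) ∈ H := by
      rw [key, hw]
      simpa using hmul 1 hone w
    funext i
    have := hu _ hmem i
    rw [← ZMod.intCast_zmod_eq_zero_iff_dvd] at this
    simpa using this
  have hinj : Function.Injective fun c : Fin k → ZMod p => Matrix.vecMul c A := by
    intro c c' hcc
    have : Matrix.vecMul (c - c') A = 0 := by
      rw [Matrix.sub_vecMul]
      exact sub_eq_zero.mpr hcc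
    exact sub_eq_zero.mp (hker _ this)
  have hsurj : Function.Surjective fun c : Fin k → ZMod p => Matrix.vecMul c A :=
    Matrix.vecMul_surjective_iff_isUnit.mpr (Matrix.vecMul_injective_iff_isUnit.mp hinj)
  intro v hv
  obtain ⟨b, hb⟩ := hg v
  obtain ⟨c, hc⟩ := hsurj fun j => (b j : ZMod p)
  set e : Fin k → ℤ := fun i => ((c i).val : ℤ) with he
  have hdvd : ∀ j, (p : ℤ) ∣ b j - ∑ i, e i * a i j := by
    intro j
    rw [← ZMod.intCast_zmod_eq_zero_iff_dvd, Int.cast_sub, hcast c j]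
    have := congrFun hc j
    simp only at this
    rw [this, sub_self]
  obtain ⟨w, hw⟩ := exists_eq_pow_of_dvd g _ hdvd
  have hv' : v = (∏ i, u i ^ e i) * w ^ p := by
    rw [key, ← hw, ← Finset.prod_mul_distrib, hb]
    refine Finset.prod_congr rfl fun j _ => ?_
    rw [← zpow_add]
    congr 1
    ring
  have hmem : (∏ i, u i ^ e i) ∈ H := by
    have h1 : (∏ i, u i ^ e i) = v * w⁻¹ ^ p := by
      rw [hv', inv_pow, mul_inv_cancel_right]
    rw [h1]
    exact hmul v hv _
  obtain ⟨w', hw'⟩ := exists_eq_pow_of_dvd u e (hu e hmem)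
  exact ⟨w' * w, by rw [hv', hw', mul_pow]⟩

section Cyclotomic

variable {p : ℕ} [Fact p.Prime] (K : Type*) [Field K] [NumberField K]
  [IsCyclotomicExtension {p} ℚ K]

/-- Every element of `𝓞 K` is congruent to a rational integer modulo `ζ - 1`. -/
theorem exists_int_sub_dvd {ζ : K} (hζ : IsPrimitiveRoot ζ p) (x : 𝓞 K) :
    ∃ n : ℤ, (hζ.toInteger - 1) ∣ x - (n : 𝓞 K) := by
  have hx : x ∈ Algebra.adjoin ℤ {hζ.toInteger} := by
    have h := hζ.integralPowerBasis.adjoin_gen_eq_top
    rw [hζ.integralPowerBasis_gen] at h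
    rw [h]
    exact Algebra.mem_top
  induction hx using Algebra.adjoin_induction with
  | mem y hy =>
    rw [Set.mem_singleton_iff] at hy
    exact ⟨1, by rw [hy, Int.cast_one]⟩
  | algebraMap r => exact ⟨r, by simp⟩
  | add y z _ _ hy hz =>
    obtain ⟨n, hn⟩ := hy
    obtain ⟨m, hm⟩ := hz
    refine ⟨n + m, ?_⟩
    have : y + z - ((n + m : ℤ) : 𝓞 K) = (y - n) + (z - m) := by push_cast; ring
    rw [this]
    exact dvd_add hn hm
  | mul y z _ _ hy hz =>
    obtain ⟨n, hn⟩ := hy
    obtain ⟨m, hm⟩ := hz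
    refine ⟨n * m, ?_⟩
    have : y * z - ((n * m : ℤ) : 𝓞 K) = (y - n) * z + n * (z - m) := by push_cast; ring
    rw [this]
    exact dvd_add (Dvd.dvd.mul_right hn _) (Dvd.dvd.mul_left hm _)

/-- Every `p`-th power in `𝓞 K`, `K = ℚ(ζ_p)`, is congruent to a rational integer modulo `p`. -/
theorem exists_int_dvd_pow_sub (x : 𝓞 K) : ∃ n : ℤ, (p : 𝓞 K) ∣ x ^ p - (n : 𝓞 K) := by
  have hp : p.Prime := Fact.out
  have hζ := IsCyclotomicExtension.zeta_spec p ℚ K
  obtain ⟨n, y, hy⟩ := exists_int_sub_dvd K hζ x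
  have hx : x = (n : 𝓞 K) + (hζ.toInteger - 1) * y := by rw [← hy]; ring
  obtain ⟨r, hr⟩ := exists_add_pow_prime_eq hp (n : 𝓞 K) ((hζ.toInteger - 1) * y)
  have hassoc := IsCyclotomicExtension.Rat.associated_zeta_sub_one_pow_prime p hζ
  obtain ⟨t, ht⟩ := hassoc.symm.dvd
  refine ⟨n ^ p, ?_⟩
  have hpow : (hζ.toInteger - 1) ^ p = (hζ.toInteger - 1) ^ (p - 1) * (hζ.toInteger - 1) := by
    rw [← pow_succ, Nat.sub_add_cancel hp.one_le]
  refine ⟨t * (hζ.toInteger - 1) * y ^ p + (n : 𝓞 K) * ((hζ.toInteger - 1) * y) * r, ?_⟩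
  rw [hx, hr, mul_pow, hpow, ht]
  push_cast
  ring

/-- `(𝓞 K)ˣ` is generated by `(p - 1) / 2` elements. -/
theorem exists_generators (hp2 : p ≠ 2) :
    ∃ g : Fin ((p - 1) / 2) → (𝓞 K)ˣ,
      ∀ x : (𝓞 K)ˣ, ∃ e : Fin ((p - 1) / 2) → ℤ, x = ∏ j, g j ^ e j := by
  classical
  have hp : p.Prime := Fact.out
  have hp3 : 2 < p := lt_of_le_of_ne hp.two_le (Ne.symm hp2)
  have hcard : Fintype.card (InfinitePlace K) = (p - 1) / 2 := by
    rw [InfinitePlace.card_eq_nrRealPlaces_add_nrComplexPlaces,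
      IsCyclotomicExtension.Rat.nrRealPlaces_eq_zero K hp3,
      IsCyclotomicExtension.Rat.nrComplexPlaces_eq_totient_div_two p K, Nat.totient_prime hp,
      zero_add]
  have hrank : Fintype.card (Option (Fin (Units.rank K))) = (p - 1) / 2 := by
    rw [Fintype.card_option, Fintype.card_fin, Units.rank, hcard]
    have : 1 ≤ (p - 1) / 2 := by omega
    omega
  obtain ⟨t, ht⟩ := IsCyclic.exists_generator (α := Units.torsion K)
  let g' : Option (Fin (Units.rank K)) → (𝓞 K)ˣ :=
    fun o => o.elim (t : (𝓞 K)ˣ) (Units.fundSystem K)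
  let σ := Fintype.equivFinOfCardEq hrank
  refine ⟨fun j => g' (σ.symm j), fun x => ?_⟩
  obtain ⟨⟨τ, e⟩, hx, -⟩ := Units.exist_unique_eq_mul_prod K x
  obtain ⟨m, hm⟩ := Subgroup.mem_zpowers_iff.mp (ht τ)
  let e' : Option (Fin (Units.rank K)) → ℤ := fun o => o.elim m e
  refine ⟨fun j => e' (σ.symm j), ?_⟩
  rw [Equiv.prod_comp σ.symm (fun o => g' o ^ e' o), Fintype.prod_option]
  simp only [g', e', Option.elim_none, Option.elim_some]
  rw [hx]
  congr 1
  rw [← hm]
  simp

/-- Additive form of `exists_generators`: `Additive (𝓞 K)ˣ` is generated by `(p - 1) / 2`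
elements. -/
theorem exists_generators_additive (hp2 : p ≠ 2) :
    ∃ s : Fin ((p - 1) / 2) → Additive (𝓞 K)ˣ, AddSubgroup.closure (Set.range s) = ⊤ := by
  obtain ⟨g, hg⟩ := exists_generators (p := p) K hp2
  refine ⟨fun j => Additive.ofMul (g j), ?_⟩
  rw [eq_top_iff]
  intro x _
  obtain ⟨e, he⟩ := hg (Additive.toMul x)
  have hx : x = ∑ j, e j • Additive.ofMul (g j) := by
    apply Additive.toMul.injective
    rw [he]
    simp [toMul_sum, toMul_zsmul]
  rw [hx]
  refine AddSubgroup.sum_mem _ fun j _ => AddSubgroup.zsmul_mem _ ?_ _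
  exact AddSubgroup.subset_closure (Set.mem_range_self j)

end Cyclotomic

end Fermat.Agent.Kummer.UnitsModPow

namespace Fermat.Agent.Kummer

open NumberField

/-- Kummer's lemma from an independence certificate: if `(p - 1) / 2` units are such that a
product of integer powers of them is congruent to a rational integer modulo `p` only when all
the exponents are divisible by `p`, then every unit congruent to a rational integer modulo `p`
is a `p`-th power. -/
theorem kummerLemmaHolds_of_indep {p : ℕ} [Fact p.Prime] (hp2 : p ≠ 2) (K : Type*) [Field K]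
    [NumberField K] [IsCyclotomicExtension {p} ℚ K] (u : Fin ((p - 1) / 2) → (𝓞 K)ˣ)
    (hu : ∀ e : Fin ((p - 1) / 2) → ℤ,
      (∃ n : ℤ, (p : 𝓞 K) ∣ ((∏ i, u i ^ e i : (𝓞 K)ˣ) : 𝓞 K) - (n : 𝓞 K)) →
        ∀ i, (p : ℤ) ∣ e i) :
    KummerLemmaHolds p K := by
  obtain ⟨g, hg⟩ := UnitsModPow.exists_generators (p := p) K hp2
  intro v hv
  refine UnitsModPow.core (p := p) {v : (𝓞 K)ˣ | ∃ n : ℤ, (p : 𝓞 K) ∣ (v : 𝓞 K) - (n : 𝓞 K)}
    ⟨1, by simp⟩ ?_ g hg u hu v hv
  rintro x ⟨n, hn⟩ w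
  obtain ⟨m, hm⟩ := UnitsModPow.exists_int_dvd_pow_sub (p := p) K (w : 𝓞 K)
  refine ⟨n * m, ?_⟩
  have : ((x * w ^ p : (𝓞 K)ˣ) : 𝓞 K) - ((n * m : ℤ) : 𝓞 K) =
      ((x : 𝓞 K) - n) * (w : 𝓞 K) ^ p + n * ((w : 𝓞 K) ^ p - m) := by
    push_cast; ring
  rw [this]
  exact dvd_add (Dvd.dvd.mul_right hn _) (Dvd.dvd.mul_left hm _)

end Fermat.Agent.Kummer
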