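import Mathlib

set_option autoImplicit false

namespace Fermat.Agent.Kummer.PID13Certs

/-- The cyclotomic relation in expanded form. -/
theorem expand13 {R : Type*} [CommRing R] (ζ : R) (hΦ : ∑ i ∈ Finset.range 13, ζ ^ i = 0) :
    1 + ζ + ζ ^ 2 + ζ ^ 3 + ζ ^ 4 + ζ ^ 5 + ζ ^ 6 + ζ ^ 7 + ζ ^ 8 + ζ ^ 9 + ζ ^ 10 + ζ ^ 11 + ζ ^ 12 = 0 := by
  simpa [Finset.sum_range_succ] using hΦ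

/-- Certificate for a principal prime over `53` in the `13`-th cyclotomic ring:
`α = 1 - ζ + ζ ^ 3`, root `r = 16` modulo `53`. -/
theorem cert13_53 {R : Type*} [CommRing R] (ζ : R) (hΦ : ∑ i ∈ Finset.range 13, ζ ^ i = 0) :
    ∃ β γ u v : R, (1 - ζ + ζ ^ 3) * β = 53 ∧ (1 - ζ + ζ ^ 3) * γ = ζ - 16 ∧
      1 - ζ + ζ ^ 3 = u * (ζ - 16) + v * 53 := by
  have h := expand13 ζ hΦ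
  refine ⟨25 + 10 * ζ + 19 * ζ ^ 2 + 3 * ζ ^ 3 + 2 * ζ ^ 4 - 8 * ζ ^ 5 - 2 * ζ ^ 6 + 5 * ζ ^ 7 + 22 * ζ ^ 8 + 33 * ζ ^ 9 + 37 * ζ ^ 10 + 24 * ζ ^ 11,
    -8 - 3 * ζ - 6 * ζ ^ 2 - ζ ^ 3 - ζ ^ 4 + 2 * ζ ^ 5 - 2 * ζ ^ 7 - 7 * ζ ^ 8 - 10 * ζ ^ 9 - 11 * ζ ^ 10 - 7 * ζ ^ 11,
    255 + 16 * ζ + ζ ^ 2, 77, ?_, ?_, ?_⟩
  · linear_combination (-28 + 13 * ζ + 24 * ζ ^ 2) * h
  · linear_combination (8 - 4 * ζ - 7 * ζ ^ 2) * h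
  · ring

/-- Certificate for a principal prime over `79` in the `13`-th cyclotomic ring:
`α = 1 - ζ - ζ ^ 4`, root `r = 62` modulo `79`. -/
theorem cert13_79 {R : Type*} [CommRing R] (ζ : R) (hΦ : ∑ i ∈ Finset.range 13, ζ ^ i = 0) :
    ∃ β γ u v : R, (1 - ζ - ζ ^ 4) * β = 79 ∧ (1 - ζ - ζ ^ 4) * γ = ζ - 62 ∧
      1 - ζ - ζ ^ 4 = u * (ζ - 62) + v * 79 := by
  have h := expand13 ζ hΦ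
  refine ⟨62 + 63 * ζ + 49 * ζ ^ 2 + 8 * ζ ^ 3 + 29 * ζ ^ 4 + 51 * ζ ^ 5 + 59 * ζ ^ 6 + 26 * ζ ^ 7 + 14 * ζ ^ 8 + 24 * ζ ^ 9 + 42 * ζ ^ 10 + 27 * ζ ^ 11,
    -49 - 49 * ζ - 38 * ζ ^ 2 - 6 * ζ ^ 3 - 23 * ζ ^ 4 - 40 * ζ ^ 5 - 46 * ζ ^ 6 - 20 * ζ ^ 7 - 11 * ζ ^ 8 - 19 * ζ ^ 9 - 33 * ζ ^ 10 - 21 * ζ ^ 11,
    -238329 - 3844 * ζ - 62 * ζ ^ 2 - ζ ^ 3, -187043, ?_, ?_, ?_⟩
  · linear_combination (-17 + 18 * ζ - 15 * ζ ^ 2 - 27 * ζ ^ 3) * h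
  · linear_combination (13 - 14 * ζ + 12 * ζ ^ 2 + 21 * ζ ^ 3) * h
  · ring

/-- Certificate for a principal prime over `131` in the `13`-th cyclotomic ring:
`α = 1 - ζ - ζ ^ 3`, root `r = 80` modulo `131`. -/
theorem cert13_131 {R : Type*} [CommRing R] (ζ : R) (hΦ : ∑ i ∈ Finset.range 13, ζ ^ i = 0) :
    ∃ β γ u v : R, (1 - ζ - ζ ^ 3) * β = 131 ∧ (1 - ζ - ζ ^ 3) * γ = ζ - 80 ∧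
      1 - ζ - ζ ^ 3 = u * (ζ - 80) + v * 131 := by
  have h := expand13 ζ hΦ
  refine ⟨111 + 78 * ζ + 17 * ζ ^ 2 + 67 * ζ ^ 3 + 84 * ζ ^ 4 + 40 * ζ ^ 5 + 46 * ζ ^ 6 + 69 * ζ ^ 7 + 48 * ζ ^ 8 + 33 * ζ ^ 9 + 41 * ζ ^ 10 + 28 * ζ ^ 11,
    -68 - 47 * ζ - 10 * ζ ^ 2 - 41 * ζ ^ 3 - 51 * ζ ^ 4 - 24 * ζ ^ 5 - 28 * ζ ^ 6 - 42 * ζ ^ 7 - 29 * ζ ^ 8 - 20 * ζ ^ 9 - 25 * ζ ^ 10 - 17 * ζ ^ 11,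
    -6401 - 80 * ζ - ζ ^ 2, -3909, ?_, ?_, ?_⟩
  · linear_combination (-20 - 13 * ζ - 28 * ζ ^ 2) * h
  · linear_combination (12 + 8 * ζ + 17 * ζ ^ 2) * h
  · ring

/-- Certificate for a principal prime over `157` in the `13`-th cyclotomic ring:
`α = 1 - ζ + ζ ^ 2 + ζ ^ 4`, root `r = 75` modulo `157`. -/
theorem cert13_157 {R : Type*} [CommRing R] (ζ : R) (hΦ : ∑ i ∈ Finset.range 13, ζ ^ i = 0) :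
    ∃ β γ u v : R, (1 - ζ + ζ ^ 2 + ζ ^ 4) * β = 157 ∧ (1 - ζ + ζ ^ 2 + ζ ^ 4) * γ = ζ - 75 ∧
      1 - ζ + ζ ^ 2 + ζ ^ 4 = u * (ζ - 75) + v * 157 := by
  have h := expand13 ζ hΦ
  refine ⟨89 + 86 * ζ + 42 * ζ ^ 2 + 77 * ζ ^ 3 + 67 * ζ ^ 4 + 25 * ζ ^ 5 + 37 * ζ ^ 6 + 56 * ζ ^ 7 + 73 * ζ ^ 8 + 113 * ζ ^ 9 + 124 * ζ ^ 10 + 76 * ζ ^ 11,
    -43 - 41 * ζ - 20 * ζ ^ 2 - 37 * ζ ^ 3 - 32 * ζ ^ 4 - 12 * ζ ^ 5 - 18 * ζ ^ 6 - 27 * ζ ^ 7 - 35 * ζ ^ 8 - 54 * ζ ^ 9 - 59 * ζ ^ 10 - 36 * ζ ^ 11,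
    421949 + 5626 * ζ + 75 * ζ ^ 2 + ζ ^ 3, 201568, ?_, ?_, ?_⟩
  · linear_combination (-68 + 65 * ζ + 48 * ζ ^ 2 + 76 * ζ ^ 3) * h
  · linear_combination (32 - 31 * ζ - 23 * ζ ^ 2 - 36 * ζ ^ 3) * h
  · ring

/-- Certificate for a principal prime over `3` in the `13`-th cyclotomic ring:
`α = 1 + ζ - ζ ^ 3 = -h(ζ)` with `h = X ^ 3 - X - 1` irreducible modulo `3`. -/
theorem cert13_3 {R : Type*} [CommRing R] (ζ : R) (hΦ : ∑ i ∈ Finset.range 13, ζ ^ i = 0) :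
    ∃ β : R, (1 + ζ - ζ ^ 3) * β = 3 := by
  have h := expand13 ζ hΦ
  refine ⟨-1 - ζ ^ 2 - ζ ^ 3 - 2 * ζ ^ 5 - ζ ^ 7 - 2 * ζ ^ 8 + ζ ^ 9 - 3 * ζ ^ 10, ?_⟩
  linear_combination (-4 + 3 * ζ) * h

/-- `X ^ 3 - X - 1` divides the `13`-th cyclotomic polynomial modulo `3`: an explicit
polynomial identity over any commutative ring. -/
theorem cubic_mul_cofactor_13 {R : Type*} [CommRing R] (X : R) :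
    (X ^ 3 - X - 1) * (-1 - X ^ 2 - X ^ 3 + X ^ 5 - X ^ 7 + X ^ 8 + X ^ 9) =
      (1 + X + X ^ 2 + X ^ 3 + X ^ 4 + X ^ 5 + X ^ 6 + X ^ 7 + X ^ 8 + X ^ 9 + X ^ 10 + X ^ 11 + X ^ 12) + 3 * (-X ^ 5 - X ^ 6 - X ^ 9 - X ^ 10) := by
  ring

end Fermat.Agent.Kummer.PID13Certs
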