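/-
Team KUMMER, block PID (owner: helper75).
Generic criterion: the ring of integers of the `p`-th cyclotomic field is a PID as soon as
finitely many explicit primes have a principal prime above them (Minkowski bound), plus the
Minkowski-bound numerics for `p = 7, 11, 13`.

Exported (namespace `Fermat.Agent.Kummer`):
* `eleven_pid_of_principal`   (needs a principal prime above 23)
* `thirteen_pid_of_principal` (needs principal primes above 3, 53, 79, 131, 157)
-/
import Mathlib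

set_option autoImplicit false

namespace Fermat.Agent.Kummer

open NumberField Module InfinitePlace Ideal Nat Real

namespace PIDAux

/-- Generic criterion.  `B` is any natural number with `M K < B + 1` (`M K` the Minkowski bound).
It suffices to find a principal prime above every prime `q ≤ B`, `q ≠ p`, for which some power
`q ^ k ≤ B` (`k > 0`) is congruent to `1` modulo `p`. -/
theorem pid_of_bound {p : ℕ} [hp : Fact p.Prime] (K : Type*) [Field K] [NumberField K]
    [IsCyclotomicExtension {p} ℚ K] (B : ℕ)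
    (hB : (4 / π) ^ nrComplexPlaces K *
      ((finrank ℚ K)! / (finrank ℚ K) ^ (finrank ℚ K) * √|(discr K : ℝ)|) < B + 1)
    (h : ∀ q : ℕ, q.Prime → q ≤ B → q ≠ p →
      (∃ k : ℕ, 0 < k ∧ q ^ k ≤ B ∧ (q : ZMod p) ^ k = 1) →
      ∃ P ∈ primesOver (span {(q : ℤ)}) (𝓞 K), Submodule.IsPrincipal P) :
    IsPrincipalIdealRing (𝓞 K) := by
  have hgal : IsGalois ℚ K := IsCyclotomicExtension.isGalois {p} ℚ K
  have hfloor : ⌊(4 / π) ^ nrComplexPlaces K *
      ((finrank ℚ K)! / (finrank ℚ K) ^ (finrank ℚ K) * √|(discr K : ℝ)|)⌋₊ ≤ B := by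
    apply Nat.lt_succ_iff.mp
    refine (Nat.floor_lt (by positivity)).mpr ?_
    push_cast
    exact hB
  refine RingOfIntegers.isPrincipalIdealRing_of_isPrincipal_of_lt_or_isPrincipal_of_mem_primesOver_of_mem_Icc
    (fun q hq hqp => ?_)
  rw [Finset.mem_Icc] at hq
  by_cases hqp' : q = p
  · subst hqp'
    have hζ := IsCyclotomicExtension.zeta_spec q ℚ K
    have hζ' : IsPrimitiveRoot (IsCyclotomicExtension.zeta q ℚ K) (q ^ (0 + 1)) := by
      simp [hζ]
    have hK' : IsCyclotomicExtension {q ^ (0 + 1)} ℚ K := by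
      simpa using ‹IsCyclotomicExtension {q} ℚ K›
    refine ⟨span {hζ'.toInteger - 1}, ⟨?_, ?_⟩, Or.inr ⟨_, rfl⟩⟩
    · exact IsCyclotomicExtension.Rat.isPrime_span_zeta_sub_one q 0 hζ'
    · exact IsCyclotomicExtension.Rat.liesOver_span_zeta_sub_one q 0 hζ'
  · have : Fact q.Prime := ⟨hqp⟩
    have : (span {(q : ℤ)}).IsPrime :=
      (span_singleton_prime (by exact_mod_cast hqp.ne_zero)).mpr (Nat.prime_iff_prime_int.mp hqp)
    obtain ⟨⟨P, hP1, hP2⟩⟩ := (span {(q : ℤ)}).nonempty_primesOver (S := 𝓞 K)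
    have hndvd : ¬ q ∣ p := fun hdvd => hqp' ((Nat.prime_dvd_prime_iff_eq hqp hp.out).mp hdvd)
    have hdeg : P.inertiaDeg ℤ = orderOf (q : ZMod p) :=
      IsCyclotomicExtension.Rat.inertiaDeg_eq_of_not_dvd q K P (m := p) hndvd
    by_cases hlt : ⌊(4 / π) ^ nrComplexPlaces K *
      ((finrank ℚ K)! / (finrank ℚ K) ^ (finrank ℚ K) * √|(discr K : ℝ)|)⌋₊ < q ^ P.inertiaDeg ℤ
    · exact ⟨P, ⟨hP1, hP2⟩, Or.inl hlt⟩
    · have hpos : 0 < P.inertiaDeg ℤ := by
        have : (span {(q : ℤ)}).IsMaximal := Int.ideal_span_isMaximal_of_prime q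
        exact inertiaDeg_pos ..
      obtain ⟨P', hP', hprinc⟩ := h q hqp (hq.2.trans hfloor) hqp'
        ⟨P.inertiaDeg ℤ, hpos, (not_lt.mp hlt).trans hfloor,
          by rw [hdeg]; exact pow_orderOf_eq_one _⟩
      exact ⟨P', hP', Or.inr hprinc⟩

/-- Upper bound for the Minkowski bound of the `p`-th cyclotomic field in terms of rational
numerics (`π > 3.1415`, and `s` an integer upper bound for `√(p ^ (p - 2))`). -/
theorem minkowski_lt (p r n : ℕ) (K : Type*) [Field K] [NumberField K] [hp : Fact p.Prime]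
    [IsCyclotomicExtension {p} ℚ K] (s : ℕ) (B : ℕ) (hr : (p - 1) / 2 = r) (hn : p - 1 = n)
    (hs : p ^ (p - 2) < s ^ 2)
    (hnum : ((40000 : ℝ) / 31415) ^ r * ((n ! : ℝ) / (n : ℝ) ^ n * s) < B + 1) :
    (4 / π) ^ nrComplexPlaces K *
      ((finrank ℚ K)! / (finrank ℚ K) ^ (finrank ℚ K) * √|(discr K : ℝ)|) < B + 1 := by
  have hpne : NeZero p := ⟨hp.out.ne_zero⟩
  rw [IsCyclotomicExtension.Rat.discr_prime p K,
    IsCyclotomicExtension.finrank (n := p) K (Polynomial.cyclotomic.irreducible_rat hp.out.pos),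
    IsCyclotomicExtension.Rat.nrComplexPlaces_eq_totient_div_two p, Nat.totient_prime hp.out,
    hr, hn]
  refine lt_of_le_of_lt ?_ hnum
  have hpi : (4 : ℝ) / π ≤ 40000 / 31415 := by
    rw [div_le_div_iff₀ Real.pi_pos (by norm_num)]
    have := Real.pi_gt_d4
    linarith
  have hsqrt : √|((((-1 : ℤ) ^ r * (p : ℤ) ^ (p - 2) : ℤ)) : ℝ)| ≤ s := by
    rw [Real.sqrt_le_left (by positivity)]
    push_cast
    rw [abs_mul, abs_pow, abs_neg, abs_one, one_pow, one_mul, abs_of_nonneg (by positivity)]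
    exact_mod_cast hs.le
  gcongr

/-- Bridge between the `ZMod` formulation of `pid_of_bound` and a `decide`-friendly one. -/
theorem exists_pow_mod {p B q : ℕ} (hp : 1 < p) (hq : 2 ≤ q)
    (h : ∃ k : ℕ, 0 < k ∧ q ^ k ≤ B ∧ (q : ZMod p) ^ k = 1) (N : ℕ) (hN : B < 2 ^ (N + 1)) :
    ∃ k ∈ Finset.Icc 1 N, q ^ k ≤ B ∧ q ^ k % p = 1 := by
  obtain ⟨k, hk0, hkB, hk1⟩ := h
  refine ⟨k, Finset.mem_Icc.mpr ⟨hk0, ?_⟩, hkB, ?_⟩
  · have h2 : 2 ^ k < 2 ^ (N + 1) :=
      lt_of_le_of_lt ((Nat.pow_le_pow_left hq k).trans hkB) hN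
    exact Nat.lt_succ_iff.mp ((Nat.pow_lt_pow_iff_right (by norm_num)).mp h2)
  · have h1 : ((q ^ k : ℕ) : ZMod p) = ((1 : ℕ) : ZMod p) := by
      push_cast
      exact hk1
    have h2 := (ZMod.natCast_eq_natCast_iff' _ _ _).mp h1
    rwa [Nat.mod_eq_of_lt hp] at h2

theorem dec_seven : ∀ q ∈ Finset.range 5, ∀ k ∈ Finset.Icc 1 2,
    q ^ k ≤ 4 → q ^ k % 7 = 1 → Nat.Prime q → False := by
  decide

set_option maxRecDepth 100000 in
theorem dec_eleven : ∀ q ∈ Finset.range 59, ∀ k ∈ Finset.Icc 1 5,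
    q ^ k ≤ 58 → q ^ k % 11 = 1 → Nat.Prime q → q = 23 := by
  decide

set_option maxRecDepth 100000 in
theorem dec_thirteen : ∀ q ∈ Finset.range 307, ∀ k ∈ Finset.Icc 1 8,
    q ^ k ≤ 306 → q ^ k % 13 = 1 → Nat.Prime q →
      q = 3 ∨ q = 53 ∨ q = 79 ∨ q = 131 ∨ q = 157 := by
  decide

end PIDAux

open PIDAux

/-- The ring of integers of `ℚ(ζ₇)` is a PID (same statement as `Fermat.Agent.Kummer.seven_pid`
of `PID7.lean`; kept in this sub-namespace as an independent check of the criterion). -/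
theorem PIDAux.seven_pid_of_bound (K : Type*) [Field K] [NumberField K]
    [IsCyclotomicExtension {7} ℚ K] : IsPrincipalIdealRing (𝓞 K) := by
  have : Fact (Nat.Prime 7) := ⟨by norm_num⟩
  refine pid_of_bound (p := 7) K 4 (minkowski_lt 7 3 6 K 130 4 (by norm_num) (by norm_num)
    (by norm_num) (by norm_num [Nat.factorial])) (fun q hq hqB _ hk => ?_)
  obtain ⟨k, hk, hkB, hk1⟩ := exists_pow_mod (by norm_num) hq.two_le hk 2 (by norm_num)
  exact (dec_seven q (Finset.mem_range.mpr (Nat.lt_succ_iff.mpr hqB)) k hk hkB hk1 hq).elim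

/-- The ring of integers of `ℚ(ζ₁₁)` is a PID, given a principal prime above `23`. -/
theorem eleven_pid_of_principal (K : Type*) [Field K] [NumberField K]
    [IsCyclotomicExtension {11} ℚ K]
    (h23 : ∃ P ∈ primesOver (span {((23 : ℕ) : ℤ)}) (𝓞 K), Submodule.IsPrincipal P) :
    IsPrincipalIdealRing (𝓞 K) := by
  have : Fact (Nat.Prime 11) := ⟨by norm_num⟩
  refine pid_of_bound (p := 11) K 58 (minkowski_lt 11 5 10 K 48559 58 (by norm_num) (by norm_num)
    (by norm_num) (by norm_num [Nat.factorial])) (fun q hq hqB _ hk => ?_)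
  obtain ⟨k, hk, hkB, hk1⟩ := exists_pow_mod (by norm_num) hq.two_le hk 5 (by norm_num)
  obtain rfl := dec_eleven q (Finset.mem_range.mpr (Nat.lt_succ_iff.mpr hqB)) k hk hkB hk1 hq
  exact h23

/-- The ring of integers of `ℚ(ζ₁₃)` is a PID, given principal primes above
`3, 53, 79, 131, 157`. -/
theorem thirteen_pid_of_principal (K : Type*) [Field K] [NumberField K]
    [IsCyclotomicExtension {13} ℚ K]
    (h3 : ∃ P ∈ primesOver (span {((3 : ℕ) : ℤ)}) (𝓞 K), Submodule.IsPrincipal P)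
    (h53 : ∃ P ∈ primesOver (span {((53 : ℕ) : ℤ)}) (𝓞 K), Submodule.IsPrincipal P)
    (h79 : ∃ P ∈ primesOver (span {((79 : ℕ) : ℤ)}) (𝓞 K), Submodule.IsPrincipal P)
    (h131 : ∃ P ∈ primesOver (span {((131 : ℕ) : ℤ)}) (𝓞 K), Submodule.IsPrincipal P)
    (h157 : ∃ P ∈ primesOver (span {((157 : ℕ) : ℤ)}) (𝓞 K), Submodule.IsPrincipal P) :
    IsPrincipalIdealRing (𝓞 K) := by
  have : Fact (Nat.Prime 13) := ⟨by norm_num⟩
  refine pid_of_bound (p := 13) K 306 (minkowski_lt 13 6 12 K 1338717 306 (by norm_num) (by norm_num)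
    (by norm_num) (by norm_num [Nat.factorial])) (fun q hq hqB _ hk => ?_)
  obtain ⟨k, hk, hkB, hk1⟩ := exists_pow_mod (by norm_num) hq.two_le hk 8 (by norm_num)
  obtain rfl | rfl | rfl | rfl | rfl :=
    dec_thirteen q (Finset.mem_range.mpr (Nat.lt_succ_iff.mpr hqB)) k hk hkB hk1 hq
  exacts [h3, h53, h79, h131, h157]

end Fermat.Agent.Kummer
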