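/-
Team KUMMER, block PID (owner: helper38).
A certificate criterion for the existence of a principal prime ideal above a rational prime `q`
in the ring of integers of the `p`-th cyclotomic field, avoiding any norm computation.
-/
import Mathlib

set_option autoImplicit false

namespace Fermat.Agent.Kummer.PrincipalPrime

open NumberField Polynomial

/-- Certificate criterion: let `h ∈ ℤ[X]` be monic, irreducible modulo `q` and dividing the
`p`-th cyclotomic polynomial modulo `q`. If `α ∣ q`, `α ∣ h(ζ)` and `α ∈ (h(ζ), q)` in `𝓞 K`,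
then `(α)` is a prime ideal above `q`; in particular there is a principal prime above `q`. -/
theorem exists_principal_primesOver_of_cert {p q : ℕ} [Fact p.Prime] [Fact q.Prime]
    (K : Type*) [Field K] [NumberField K] [IsCyclotomicExtension {p} ℚ K]
    {ζ : K} (hζ : IsPrimitiveRoot ζ p)
    (h : ℤ[X]) (hmonic : h.Monic)
    (hirr : Irreducible (h.map (Int.castRingHom (ZMod q))))
    (hdvd : h.map (Int.castRingHom (ZMod q)) ∣ cyclotomic p (ZMod q))
    (α β γ : 𝓞 K) (hβ : α * β = (q : 𝓞 K)) (hγ : α * γ = aeval hζ.toInteger h)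
    (hα : ∃ u v : 𝓞 K, α = u * aeval hζ.toInteger h + v * (q : 𝓞 K)) :
    ∃ P ∈ Ideal.primesOver (Ideal.span {(q : ℤ)}) (𝓞 K), Submodule.IsPrincipal P := by
  classical
  have : Fact (Irreducible (h.map (Int.castRingHom (ZMod q)))) := ⟨hirr⟩
  set hbar : (ZMod q)[X] := h.map (Int.castRingHom (ZMod q)) with hbar_def
  let F := AdjoinRoot hbar
  let B : PowerBasis ℤ (𝓞 K) := hζ.integralPowerBasis
  have hBgen : B.gen = hζ.toInteger := hζ.integralPowerBasis_gen
  have hprim : IsPrimitiveRoot hζ.toInteger p := hζ.toInteger_isPrimitiveRoot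
  have hmin : minpoly ℤ B.gen = cyclotomic p ℤ := by
    rw [hBgen, cyclotomic_eq_minpoly hζ (Fact.out : p.Prime).pos,
      ← minpoly.algebraMap_eq (RingOfIntegers.coe_injective (K := K)) hζ.toInteger]
    rfl
  -- evaluation of integer polynomials at the root in `F`
  have haev : ∀ g : ℤ[X], aeval (AdjoinRoot.root hbar) g =
      AdjoinRoot.mk hbar (g.map (Int.castRingHom (ZMod q))) := by
    intro g
    rw [← AdjoinRoot.aeval_eq, aeval_def, aeval_def, eval₂_map]
    congr 1
  have hroot_h : aeval (AdjoinRoot.root hbar) h = 0 := by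
    rw [haev, AdjoinRoot.mk_self]
  have hroot_cyc : aeval (AdjoinRoot.root hbar) (minpoly ℤ B.gen) = 0 := by
    rw [hmin, haev, map_cyclotomic, AdjoinRoot.mk_eq_zero]
    exact hdvd
  let φ : 𝓞 K →ₐ[ℤ] F := B.lift (AdjoinRoot.root hbar) hroot_cyc
  have hφgen : φ hζ.toInteger = AdjoinRoot.root hbar := by
    rw [← hBgen]; exact B.lift_gen _ _
  have hφaeval : ∀ f : ℤ[X], φ (aeval hζ.toInteger f) = aeval (AdjoinRoot.root hbar) f := by
    intro f
    rw [← aeval_algHom_apply, hφgen]
  have hqF : (q : F) = 0 := by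
    have h2 : (q : F) = AdjoinRoot.of hbar (q : ZMod q) := (map_natCast (AdjoinRoot.of hbar) q).symm
    rw [h2, ZMod.natCast_self, map_zero]
  have hφq : φ (q : 𝓞 K) = 0 := by
    rw [map_natCast, hqF]
  have hφh : φ (aeval hζ.toInteger h) = 0 := by rw [hφaeval, hroot_h]
  let P : Ideal (𝓞 K) := RingHom.ker (φ : 𝓞 K →+* F)
  have hPprime : P.IsPrime := RingHom.ker_isPrime _
  have hmemP : ∀ x : 𝓞 K, x ∈ P ↔ φ x = 0 := fun x => Iff.rfl
  have hαP : α ∈ P := by
    obtain ⟨u, v, rfl⟩ := hα
    rw [hmemP, map_add, map_mul, map_mul, hφh, hφq, mul_zero, mul_zero, add_zero]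
  -- `P` is generated by `α`
  have hPle : P ≤ Ideal.span {α} := by
    intro x hx
    have hx0 : φ x = 0 := hx
    obtain ⟨f, hf⟩ := B.exists_eq_aeval' x
    rw [hBgen] at hf
    have hdiv : f %ₘ h + h * (f /ₘ h) = f := modByMonic_add_div f h
    have hsdeg : (f %ₘ h).degree < h.degree := degree_modByMonic_lt f hmonic
    have hxdecomp : x = aeval hζ.toInteger (f %ₘ h) +
        aeval hζ.toInteger h * aeval hζ.toInteger (f /ₘ h) := by
      rw [hf, ← map_mul, ← map_add, hdiv]
    have hxs : aeval (AdjoinRoot.root hbar) (f %ₘ h) = 0 := by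
      have := hx0
      rw [hxdecomp, map_add, map_mul, hφh, zero_mul, add_zero, hφaeval] at this
      exact this
    have hsmap : (f %ₘ h).map (Int.castRingHom (ZMod q)) = 0 := by
      have h3 : AdjoinRoot.mk hbar ((f %ₘ h).map (Int.castRingHom (ZMod q))) = 0 := by
        rw [← haev, hxs]
      rw [AdjoinRoot.mk_eq_zero] at h3
      refine eq_zero_of_dvd_of_degree_lt h3 ?_
      calc ((f %ₘ h).map (Int.castRingHom (ZMod q))).degree ≤ (f %ₘ h).degree := degree_map_le
        _ < h.degree := hsdeg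
        _ = hbar.degree := (hmonic.degree_map _).symm
    have hsq : (C (q : ℤ)) ∣ f %ₘ h := by
      rw [C_dvd_iff_dvd_coeff]
      intro i
      have := congrArg (fun g => g.coeff i) hsmap
      simp only [coeff_map, coeff_zero, eq_intCast] at this
      exact (ZMod.intCast_zmod_eq_zero_iff_dvd _ _).mp this
    obtain ⟨s', hs'⟩ := hsq
    rw [Ideal.mem_span_singleton]
    refine ⟨β * aeval hζ.toInteger s' + γ * aeval hζ.toInteger (f /ₘ h), ?_⟩
    rw [hxdecomp, hs', map_mul, mul_add, ← mul_assoc, ← mul_assoc, hβ, hγ]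
    simp
  have hPeq : P = Ideal.span {α} :=
    le_antisymm hPle ((Ideal.span_singleton_le_iff_mem _).mpr hαP)
  refine ⟨P, ⟨hPprime, ⟨?_⟩⟩, ⟨α, hPeq⟩⟩
  -- `P` lies over `q`
  refine ((Int.ideal_span_isMaximal_of_prime q).eq_of_le ?_ ?_)
  · exact (Ideal.IsPrime.under ℤ P).ne_top
  · rw [Ideal.span_singleton_le_iff_mem, Ideal.under_def, Ideal.mem_comap, hmemP]
    rw [show (algebraMap ℤ (𝓞 K)) (q : ℤ) = (q : 𝓞 K) by simp]
    exact hφq

end Fermat.Agent.Kummer.PrincipalPrime
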