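/-
Team KUMMER, block PID (owner: helper38).
The ring of integers of the 13-th cyclotomic field is a principal ideal domain.
-/
import Mathlib
import Fermat.Agent.Kummer.PrincipalPrime
import Fermat.Agent.Kummer.PID13Certs
import Fermat.Agent.Kummer.PIDAux

set_option autoImplicit false

namespace Fermat.Agent.Kummer

open NumberField Module InfinitePlace Ideal Nat Real Polynomial

namespace PID13

theorem geom_sum_toInteger (K : Type*) [Field K] [NumberField K] [IsCyclotomicExtension {13} ℚ K]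
    {ζ : K} (hζ : IsPrimitiveRoot ζ 13) :
    ∑ i ∈ Finset.range 13, hζ.toInteger ^ i = 0 :=
  hζ.toInteger_isPrimitiveRoot.geom_sum_eq_zero (by norm_num)

/-- A principal prime above `q` from a degree-one certificate. -/
theorem principal_of_linear_cert (K : Type*) [Field K] [NumberField K]
    [IsCyclotomicExtension {13} ℚ K] {q : ℕ} [Fact q.Prime] {ζ : K} (hζ : IsPrimitiveRoot ζ 13)
    (r : ℤ) (hr : ∑ i ∈ Finset.range 13, (r : ZMod q) ^ i = 0) (α : 𝓞 K)
    (hcert : ∃ β γ u v : 𝓞 K, α * β = (q : 𝓞 K) ∧ α * γ = hζ.toInteger - (r : 𝓞 K) ∧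
      α = u * (hζ.toInteger - (r : 𝓞 K)) + v * (q : 𝓞 K)) :
    ∃ P ∈ primesOver (span {(q : ℤ)}) (𝓞 K), Submodule.IsPrincipal P := by
  obtain ⟨β, γ, u, v, hβ, hγ, hα⟩ := hcert
  have : Fact (Nat.Prime 13) := ⟨by norm_num⟩
  refine PrincipalPrime.exists_principal_primesOver_of_cert K hζ (X - C r) (monic_X_sub_C r)
    ?_ ?_ α β γ hβ ?_ ⟨u, v, ?_⟩
  · rw [Polynomial.map_sub, map_X, map_C]
    exact irreducible_X_sub_C _
  · rw [Polynomial.map_sub, map_X, map_C, dvd_iff_isRoot, cyclotomic_prime, IsRoot.def,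
      eval_finsetSum]
    simpa using hr
  · simpa using hγ
  · simpa using hα

theorem principal_prime_53 (K : Type*) [Field K] [NumberField K]
    [IsCyclotomicExtension {13} ℚ K] :
    ∃ P ∈ primesOver (span {((53 : ℕ) : ℤ)}) (𝓞 K), Submodule.IsPrincipal P := by
  have hr : ∑ i ∈ Finset.range 13, ((16 : ℤ) : ZMod 53) ^ i = 0 := by decide
  have : Fact (Nat.Prime 53) := ⟨by norm_num⟩
  have hζ := IsCyclotomicExtension.zeta_spec 13 ℚ K
  refine principal_of_linear_cert K hζ 16 hr (1 - hζ.toInteger + hζ.toInteger ^ 3) ?_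
  simpa using PID13Certs.cert13_53 hζ.toInteger (geom_sum_toInteger K hζ)

theorem principal_prime_79 (K : Type*) [Field K] [NumberField K]
    [IsCyclotomicExtension {13} ℚ K] :
    ∃ P ∈ primesOver (span {((79 : ℕ) : ℤ)}) (𝓞 K), Submodule.IsPrincipal P := by
  have hr : ∑ i ∈ Finset.range 13, ((62 : ℤ) : ZMod 79) ^ i = 0 := by decide
  have : Fact (Nat.Prime 79) := ⟨by norm_num⟩
  have hζ := IsCyclotomicExtension.zeta_spec 13 ℚ K
  refine principal_of_linear_cert K hζ 62 hr (1 - hζ.toInteger - hζ.toInteger ^ 4) ?_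
  simpa using PID13Certs.cert13_79 hζ.toInteger (geom_sum_toInteger K hζ)

theorem principal_prime_131 (K : Type*) [Field K] [NumberField K]
    [IsCyclotomicExtension {13} ℚ K] :
    ∃ P ∈ primesOver (span {((131 : ℕ) : ℤ)}) (𝓞 K), Submodule.IsPrincipal P := by
  have hr : ∑ i ∈ Finset.range 13, ((80 : ℤ) : ZMod 131) ^ i = 0 := by decide
  have : Fact (Nat.Prime 131) := ⟨by norm_num⟩
  have hζ := IsCyclotomicExtension.zeta_spec 13 ℚ K
  refine principal_of_linear_cert K hζ 80 hr (1 - hζ.toInteger - hζ.toInteger ^ 3) ?_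
  simpa using PID13Certs.cert13_131 hζ.toInteger (geom_sum_toInteger K hζ)

theorem principal_prime_157 (K : Type*) [Field K] [NumberField K]
    [IsCyclotomicExtension {13} ℚ K] :
    ∃ P ∈ primesOver (span {((157 : ℕ) : ℤ)}) (𝓞 K), Submodule.IsPrincipal P := by
  have hr : ∑ i ∈ Finset.range 13, ((75 : ℤ) : ZMod 157) ^ i = 0 := by decide
  have : Fact (Nat.Prime 157) := ⟨by norm_num⟩
  have hζ := IsCyclotomicExtension.zeta_spec 13 ℚ K
  refine principal_of_linear_cert K hζ 75 hr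
    (1 - hζ.toInteger + hζ.toInteger ^ 2 + hζ.toInteger ^ 4) ?_
  simpa using PID13Certs.cert13_157 hζ.toInteger (geom_sum_toInteger K hζ)

theorem cubic_irreducible : Irreducible (X ^ 3 - X - 1 : (ZMod 3)[X]) := by
  have hdeg : (X ^ 3 - X - 1 : (ZMod 3)[X]).natDegree = 3 := by compute_degree!
  refine irreducible_of_degree_le_three_of_not_isRoot (by rw [hdeg]; decide) ?_
  intro x
  simp only [IsRoot.def, eval_sub, eval_pow, eval_X, eval_one]
  revert x
  decide

theorem cubic_dvd_cyclotomic : (X ^ 3 - X - 1 : (ZMod 3)[X]) ∣ cyclotomic 13 (ZMod 3) := by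
  have : Fact (Nat.Prime 13) := ⟨by norm_num⟩
  have h3 : (3 : (ZMod 3)[X]) = 0 := by
    have : ((3 : ℕ) : (ZMod 3)[X]) = 0 := CharP.cast_eq_zero _ 3
    exact_mod_cast this
  refine ⟨-1 - X ^ 2 - X ^ 3 + X ^ 5 - X ^ 7 + X ^ 8 + X ^ 9, ?_⟩
  rw [PID13Certs.cubic_mul_cofactor_13 (X : (ZMod 3)[X]), h3, zero_mul, add_zero, cyclotomic_prime]
  simp [Finset.sum_range_succ]

theorem principal_prime_3 (K : Type*) [Field K] [NumberField K]
    [IsCyclotomicExtension {13} ℚ K] :
    ∃ P ∈ primesOver (span {((3 : ℕ) : ℤ)}) (𝓞 K), Submodule.IsPrincipal P := by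
  have : Fact (Nat.Prime 13) := ⟨by norm_num⟩
  have : Fact (Nat.Prime 3) := ⟨by norm_num⟩
  have hζ := IsCyclotomicExtension.zeta_spec 13 ℚ K
  obtain ⟨β, hβ⟩ := PID13Certs.cert13_3 hζ.toInteger (geom_sum_toInteger K hζ)
  have hmap : (X ^ 3 - X - 1 : ℤ[X]).map (Int.castRingHom (ZMod 3)) = X ^ 3 - X - 1 := by
    simp
  have hmonic : (X ^ 3 - X - 1 : ℤ[X]).Monic := by monicity!
  refine PrincipalPrime.exists_principal_primesOver_of_cert K hζ (X ^ 3 - X - 1) hmonic
    ?_ ?_ (1 + hζ.toInteger - hζ.toInteger ^ 3) β (-1) ?_ ?_ ⟨-1, 0, ?_⟩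
  · rw [hmap]; exact cubic_irreducible
  · rw [hmap]; exact cubic_dvd_cyclotomic
  · simpa using hβ
  · simp only [map_sub, map_pow, aeval_X, map_one]; ring
  · simp only [map_sub, map_pow, aeval_X, map_one]; ring

end PID13

/-- The ring of integers of `ℚ(ζ₁₃)` is a principal ideal domain. -/
theorem thirteen_pid (K : Type*) [Field K] [NumberField K] [IsCyclotomicExtension {13} ℚ K] :
    IsPrincipalIdealRing (𝓞 K) :=
  thirteen_pid_of_principal K (PID13.principal_prime_3 K) (PID13.principal_prime_53 K)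
    (PID13.principal_prime_79 K) (PID13.principal_prime_131 K) (PID13.principal_prime_157 K)

/-- Alias of `thirteen_pid`. -/
theorem pid_13 (K : Type*) [Field K] [NumberField K] [IsCyclotomicExtension {13} ℚ K] :
    IsPrincipalIdealRing (𝓞 K) :=
  thirteen_pid K

end Fermat.Agent.Kummer
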