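import Mathlib

set_option autoImplicit false

/-!
# The ring of integers of `ℚ(ζ₇)` is a principal ideal domain

Minkowski bound `< 5`; the primes `2` and `3` have residue degree `3` and `6` in `ℚ(ζ₇)`.
-/

namespace Fermat.Agent.Kummer

open NumberField Module InfinitePlace Ideal Nat Real

namespace PID7

theorem orderOf_two : orderOf ((2 : ℕ) : ZMod 7) = 3 := by
  have h2 : ((2 : ℕ) : ZMod 7) = 2 := by norm_num
  rw [h2]
  have h : (2 : ZMod 7) ^ 3 = 1 := by decide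
  have hne : (2 : ZMod 7) ≠ 1 := by decide
  exact orderOf_eq_prime h hne

theorem two_le_orderOf_three : 2 ≤ orderOf ((3 : ℕ) : ZMod 7) := by
  have h3 : ((3 : ℕ) : ZMod 7) = 3 := by norm_num
  rw [h3]
  have h6 : (3 : ZMod 7) ^ 6 = 1 := by decide
  have hpos : 0 < orderOf (3 : ZMod 7) :=
    orderOf_pos_iff.mpr (isOfFinOrder_iff_pow_eq_one.mpr ⟨6, by norm_num, h6⟩)
  have hne : orderOf (3 : ZMod 7) ≠ 1 := by
    rw [Ne, orderOf_eq_one_iff]
    decide
  omega

theorem minkowski_lt (K : Type*) [Field K] [NumberField K] [IsCyclotomicExtension {7} ℚ K] :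
    (4 / π) ^ nrComplexPlaces K *
      ((finrank ℚ K)! / (finrank ℚ K) ^ (finrank ℚ K) * √|discr K|) < 5 := by
  have : Fact (Nat.Prime 7) := ⟨by norm_num⟩
  have hfin : finrank ℚ K = 6 := by
    rw [IsCyclotomicExtension.Rat.finrank (k := 7) K]
    decide
  have hr2 : nrComplexPlaces K = 3 := by
    rw [IsCyclotomicExtension.Rat.nrComplexPlaces_eq_totient_div_two 7]
    decide
  have hdisc : discr K = -16807 := by
    rw [IsCyclotomicExtension.Rat.discr_prime 7 K]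
    norm_num
  rw [hfin, hr2, hdisc]
  have hfact : ((6 ! : ℕ) : ℝ) = 720 := by
    have : (6 ! : ℕ) = 720 := by decide
    rw [this]; norm_num
  rw [hfact]
  have habs : |((-16807 : ℤ) : ℝ)| = 16807 := by norm_num
  rw [habs]
  have hsqrt : √(16807 : ℝ) ≤ 130 := by
    rw [show (130 : ℝ) = √(130 ^ 2) by rw [Real.sqrt_sq (by norm_num)]]
    exact Real.sqrt_le_sqrt (by norm_num)
  have hpi : (4 / π) ≤ 4 / 3.14 := by
    apply div_le_div_of_nonneg_left (by norm_num) (by norm_num) pi_gt_d2.le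
  have hpi3 : (4 / π) ^ 3 ≤ (4 / 3.14) ^ 3 := by
    apply pow_le_pow_left₀ (by positivity) hpi
  have hsq0 : (0 : ℝ) ≤ √(16807 : ℝ) := Real.sqrt_nonneg _
  calc (4 / π) ^ 3 * ((720 : ℝ) / ((6 : ℕ) : ℝ) ^ 6 * √(16807 : ℝ))
      ≤ (4 / 3.14) ^ 3 * ((720 : ℝ) / ((6 : ℕ) : ℝ) ^ 6 * 130) := by
        gcongr
    _ < 5 := by norm_num

end PID7

theorem seven_pid (K : Type*) [Field K] [NumberField K] [IsCyclotomicExtension {7} ℚ K] :
    IsPrincipalIdealRing (𝓞 K) := by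
  have : Fact (Nat.Prime 7) := ⟨by norm_num⟩
  have hgal : IsGalois ℚ K := IsCyclotomicExtension.isGalois {7} ℚ K
  have hM := PID7.minkowski_lt K
  have hfloor : ⌊(4 / π) ^ nrComplexPlaces K *
      ((finrank ℚ K)! / (finrank ℚ K) ^ (finrank ℚ K) * √|discr K|)⌋₊ ≤ 4 := by
    have : ⌊(4 / π) ^ nrComplexPlaces K *
      ((finrank ℚ K)! / (finrank ℚ K) ^ (finrank ℚ K) * √|discr K|)⌋₊ < 5 := by
      rw [Nat.floor_lt (by positivity)]
      exact_mod_cast hM
    omega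
  refine RingOfIntegers.isPrincipalIdealRing_of_isPrincipal_of_lt_or_isPrincipal_of_mem_primesOver_of_mem_Icc
    (fun p hpmem hp => ?_)
  have hp4 : p ≤ 4 := (Finset.mem_Icc.mp hpmem).2.trans hfloor
  have : Fact p.Prime := ⟨hp⟩
  obtain ⟨⟨P, hP1, hP2⟩⟩ := (span {(p : ℤ)}).nonempty_primesOver (S := 𝓞 K)
  refine ⟨P, ⟨hP1, hP2⟩, Or.inl ?_⟩
  have hp23 : p = 2 ∨ p = 3 := by
    have h2 := hp.two_le
    interval_cases p
    · left; rfl
    · right; rfl
    · exact absurd hp (by decide)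
  have hnd : ¬ p ∣ 7 := by
    rcases hp23 with rfl | rfl <;> decide
  have hdeg : inertiaDeg P ℤ = orderOf (p : ZMod 7) :=
    IsCyclotomicExtension.Rat.inertiaDeg_eq_of_not_dvd p K P hnd
  rw [hdeg]
  refine lt_of_le_of_lt hfloor ?_
  rcases hp23 with rfl | rfl
  · rw [PID7.orderOf_two]; norm_num
  · calc 4 < 3 ^ 2 := by norm_num
      _ ≤ 3 ^ orderOf ((3 : ℕ) : ZMod 7) :=
        Nat.pow_le_pow_right (by norm_num) PID7.two_le_orderOf_three

end Fermat.Agent.Kummer
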