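/-
Team KUMMER, block SGCert (owner: helper73).
Sophie Germain auxiliary-prime certificates: `SGCondition p q` for
`(p, q) = (5, 11), (7, 29), (11, 23), (13, 53)`.
-/
import Mathlib
import Fermat.Agent.Kummer.Defs

set_option autoImplicit false

namespace Fermat.Agent.Kummer

namespace SGCert

/-- Generic reduction: it suffices to know a finite set `S` containing all `p`-th powers
modulo `q`, such that no three nonzero elements of `S` sum to zero and `p ∉ S`. -/
theorem sgCondition_of_cert {p q : ℕ} (hq : q.Prime) (S : Finset (ZMod q))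
    (hS : ∀ x : ZMod q, x ^ p ∈ S)
    (hsum : ∀ a ∈ S, ∀ b ∈ S, ∀ c ∈ S, a + b + c = 0 → a = 0 ∨ b = 0 ∨ c = 0)
    (hp : (p : ZMod q) ∉ S) : SGCondition p q := by
  have : Fact q.Prime := ⟨hq⟩
  refine ⟨hq, fun x y z h => ?_, fun x hx => hp (hx ▸ hS x)⟩
  rcases hsum _ (hS x) _ (hS y) _ (hS z) h with h | h | h
  · exact Or.inl (eq_zero_of_pow_eq_zero h)
  · exact Or.inr (Or.inl (eq_zero_of_pow_eq_zero h))
  · exact Or.inr (Or.inr (eq_zero_of_pow_eq_zero h))

end SGCert

theorem sgCondition_5 : SGCondition 5 11 :=
  SGCert.sgCondition_of_cert (by norm_num) {0, 1, 10} (by decide) (by decide) (by decide)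

set_option maxRecDepth 100000 in
theorem sgCondition_7 : SGCondition 7 29 :=
  SGCert.sgCondition_of_cert (by norm_num) {0, 1, 12, 17, 28} (by decide) (by decide) (by decide)

set_option maxRecDepth 100000 in
theorem sgCondition_11 : SGCondition 11 23 :=
  SGCert.sgCondition_of_cert (by norm_num) {0, 1, 22} (by decide) (by decide) (by decide)

set_option maxRecDepth 100000 in
theorem sgCondition_13 : SGCondition 13 53 :=
  SGCert.sgCondition_of_cert (by norm_num) {0, 1, 23, 30, 52} (by decide) (by decide) (by decide)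

end Fermat.Agent.Kummer
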