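/-
Team KUMMER, block V (owner: helper10).
Fermat's Last Theorem for the exponents 5, 7 and 13 (coprime integer solutions).
-/
import Fermat.Agent.Kummer.FLTSmall
import Fermat.Agent.Kummer.SGCert
import Fermat.Agent.Kummer.KLA.Main
import Fermat.Agent.Kummer.PID7
import Fermat.Agent.Kummer.PID13

set_option autoImplicit false

namespace Fermat.Agent.Kummer

open NumberField

/-- Fermat's Last Theorem for the exponent `5` (coprime integer solutions). -/
theorem fltCoprime_5 : FLTCoprime 5 := by
  have : Fact (Nat.Prime 5) := ⟨by norm_num⟩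
  have : NeZero ((5 : ℕ) : ℚ) := ⟨by norm_num⟩
  have : IsCyclotomicExtension {5} ℚ (CyclotomicField 5 ℚ) :=
    CyclotomicField.isCyclotomicExtension 5 ℚ
  have : NumberField (CyclotomicField 5 ℚ) := IsCyclotomicExtension.numberField {5} ℚ _
  have : IsPrincipalIdealRing (𝓞 (CyclotomicField 5 ℚ)) :=
    IsCyclotomicExtension.Rat.five_pid (CyclotomicField 5 ℚ)
  exact fltCoprime_of (by norm_num) sgCondition_5 (CyclotomicField 5 ℚ)
    (kummerLemmaHolds_5 (CyclotomicField 5 ℚ))

/-- Fermat's Last Theorem for the exponent `7` (coprime integer solutions). -/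
theorem fltCoprime_7 : FLTCoprime 7 := by
  have : Fact (Nat.Prime 7) := ⟨by norm_num⟩
  have : NeZero ((7 : ℕ) : ℚ) := ⟨by norm_num⟩
  have : IsCyclotomicExtension {7} ℚ (CyclotomicField 7 ℚ) :=
    CyclotomicField.isCyclotomicExtension 7 ℚ
  have : NumberField (CyclotomicField 7 ℚ) := IsCyclotomicExtension.numberField {7} ℚ _
  have : IsPrincipalIdealRing (𝓞 (CyclotomicField 7 ℚ)) := seven_pid (CyclotomicField 7 ℚ)
  exact fltCoprime_of (by norm_num) sgCondition_7 (CyclotomicField 7 ℚ)
    (kummerLemmaHolds_7 (CyclotomicField 7 ℚ))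

/-- Fermat's Last Theorem for the exponent `13` (coprime integer solutions). -/
theorem fltCoprime_13 : FLTCoprime 13 := by
  have : Fact (Nat.Prime 13) := ⟨by norm_num⟩
  have : NeZero ((13 : ℕ) : ℚ) := ⟨by norm_num⟩
  have : IsCyclotomicExtension {13} ℚ (CyclotomicField 13 ℚ) :=
    CyclotomicField.isCyclotomicExtension 13 ℚ
  have : NumberField (CyclotomicField 13 ℚ) := IsCyclotomicExtension.numberField {13} ℚ _
  have : IsPrincipalIdealRing (𝓞 (CyclotomicField 13 ℚ)) := thirteen_pid (CyclotomicField 13 ℚ)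
  exact fltCoprime_of (by norm_num) sgCondition_13 (CyclotomicField 13 ℚ)
    (kummerLemmaHolds_13 (CyclotomicField 13 ℚ))

end Fermat.Agent.Kummer
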