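/-
Team KUMMER, block PID (owner: helper11).
The ring of integers of the 11-th cyclotomic field is a principal ideal domain.
Minkowski bound < 67; the only primes needing attention are 11 (ramified, generated by
`ζ - 1`) and 23 (split, generated by `1 + ζ + ζ ^ 3`); every other prime `q ≤ 66` has
`q ^ f > 66` where `f` is the order of `q` modulo `11`.
-/
import Mathlib

set_option autoImplicit false

namespace Fermat.Agent.Kummer.PID11

open NumberField Polynomial Ideal Module InfinitePlace Nat Real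

theorem lt_pow_orderOf (q : ℕ) (hq : q.Prime) (hq66 : q ≤ 66) (h11 : q ≠ 11) (h23 : q ≠ 23) :
    66 < q ^ orderOf (q : ZMod 11) := by
  have hcop : q.Coprime 11 := by
    rw [Nat.coprime_primes hq (by norm_num)]; exact h11
  have hpos : 0 < orderOf (q : ZMod 11) := by
    have h := orderOf_pos (ZMod.unitOfCoprime q hcop)
    rwa [← orderOf_injective (Units.coeHom (ZMod 11)) Units.coeHom_injective
      (ZMod.unitOfCoprime q hcop)] at h
  have hpow : (q : ZMod 11) ^ orderOf (q : ZMod 11) = 1 := pow_orderOf_eq_one _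
  generalize orderOf (q : ZMod 11) = f at hpos hpow
  by_contra hlt
  push Not at hlt
  have hf : f ≤ 6 := by
    by_contra hf
    push Not at hf
    have h2 : 2 ^ 7 ≤ q ^ f :=
      (Nat.pow_le_pow_left hq.two_le 7).trans (Nat.pow_le_pow_right hq.pos hf)
    omega
  have hq2 := hq.two_le
  interval_cases f
  · interval_cases q <;>
      first | omega | (exact absurd hpow (by decide)) | (exact absurd hq (by norm_num))
  · have : q ≤ 8 := by nlinarith
    interval_cases q <;> first | omega | (exact absurd hpow (by decide))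
  · have : q ≤ 4 := by nlinarith [sq_nonneg q]
    interval_cases q <;> first | omega | (exact absurd hpow (by decide))
  · have : q ≤ 2 := by
      by_contra h; push Not at h
      have : 3 ^ 4 ≤ q ^ 4 := Nat.pow_le_pow_left h 4
      omega
    interval_cases q <;> first | omega | (exact absurd hpow (by decide))
  · have : q ≤ 2 := by
      by_contra h; push Not at h
      have : 3 ^ 5 ≤ q ^ 5 := Nat.pow_le_pow_left h 5
      omega
    interval_cases q <;> first | omega | (exact absurd hpow (by decide))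
  · have : q ≤ 2 := by
      by_contra h; push Not at h
      have : 3 ^ 6 ≤ q ^ 6 := Nat.pow_le_pow_left h 6
      omega
    interval_cases q <;> first | omega | (exact absurd hpow (by decide))


section

variable (K : Type*) [Field K] [NumberField K] [IsCyclotomicExtension {11} ℚ K]

theorem cyclo_eval_four : (1 + 4 + 4 ^ 2 + 4 ^ 3 + 4 ^ 4 + 4 ^ 5 + 4 ^ 6 + 4 ^ 7 + 4 ^ 8 + 4 ^ 9
    + 4 ^ 10 : ZMod 23) = 0 := by decide

theorem gen_eval_four : (1 + 4 + 4 ^ 3 : ZMod 23) = 0 := by decide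

/-- The prime of `𝓞 K` above `23` containing `ζ - 4` is principal, generated by `1 + ζ + ζ ^ 3`. -/
theorem exists_principal_over_23 :
    ∃ P ∈ primesOver (span {((23 : ℕ) : ℤ)}) (𝓞 K), Submodule.IsPrincipal P := by
  have hζK := IsCyclotomicExtension.zeta_spec 11 ℚ K
  have : Fact (Nat.Prime 23) := ⟨by norm_num⟩
  have : Fact (Nat.Prime 11) := ⟨by norm_num⟩
  set ζ : 𝓞 K := hζK.toInteger with hζdef
  have hζ : IsPrimitiveRoot ζ 11 := hζK.toInteger_isPrimitiveRoot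
  have hΦ : 1 + ζ + ζ ^ 2 + ζ ^ 3 + ζ ^ 4 + ζ ^ 5 + ζ ^ 6 + ζ ^ 7 + ζ ^ 8 + ζ ^ 9 + ζ ^ 10 = 0 := by
    have := hζ.geom_sum_eq_zero (by norm_num)
    simpa [Finset.sum_range_succ] using this
  let pb := hζK.integralPowerBasis
  have hgen : pb.gen = ζ := hζK.integralPowerBasis_gen
  have hmin : minpoly ℤ pb.gen = cyclotomic 11 ℤ := by
    rw [hgen, hζdef, ← RingOfIntegers.minpoly_coe, cyclotomic_eq_minpoly hζK (by norm_num)]
    rfl
  have hroot : aeval (4 : ZMod 23) (minpoly ℤ pb.gen) = 0 := by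
    rw [hmin, cyclotomic_prime]
    simp [Finset.sum_range_succ]
    exact cyclo_eval_four
  let ev : 𝓞 K →ₐ[ℤ] ZMod 23 := pb.lift 4 hroot
  have hevζ : ev ζ = 4 := by
    rw [← hgen]; exact pb.lift_gen 4 hroot
  let α : 𝓞 K := 1 + ζ + ζ ^ 3
  let β : 𝓞 K := -2 - 14 * ζ - 17 * ζ ^ 2 - 12 * ζ ^ 3 - 5 * ζ ^ 4 - 9 * ζ ^ 5 - 10 * ζ ^ 6
    - 16 * ζ ^ 7 - 6 * ζ ^ 8 - 15 * ζ ^ 9
  let γ : 𝓞 K := 1 + 3 * ζ + 3 * ζ ^ 2 + 2 * ζ ^ 3 + ζ ^ 4 + 2 * ζ ^ 5 + 2 * ζ ^ 6 + 3 * ζ ^ 7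
    + ζ ^ 8 + 3 * ζ ^ 9
  have hβ : α * β = 23 := by
    simp only [α, β]
    linear_combination (-25 + 9 * ζ - 15 * ζ ^ 2) * hΦ
  have hγ : α * γ = ζ - 4 := by
    simp only [α, γ]
    linear_combination (5 - 2 * ζ + 3 * ζ ^ 2) * hΦ
  refine ⟨RingHom.ker (ev : 𝓞 K →+* ZMod 23), ⟨?_, ?_⟩, ?_⟩
  · exact RingHom.ker_isPrime _
  · constructor
    ext n
    simp only [Ideal.mem_span_singleton, Ideal.under_def, Ideal.mem_comap, RingHom.mem_ker]
    have : (ev : 𝓞 K →+* ZMod 23) (algebraMap ℤ (𝓞 K) n) = (n : ZMod 23) := by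
      simp
    rw [this, ZMod.intCast_zmod_eq_zero_iff_dvd]
  · refine ⟨α, ?_⟩
    apply le_antisymm
    · intro x hx
      rw [RingHom.mem_ker] at hx
      obtain ⟨f, rfl⟩ := pb.exists_eq_aeval' x
      have hdiv := modByMonic_add_div f (X - C (4 : ℤ))
      rw [modByMonic_X_sub_C_eq_C_eval] at hdiv
      have hx' : ((f.eval 4 : ℤ) : ZMod 23) = 0 := by
        have h1 : (ev : 𝓞 K →+* ZMod 23) (aeval pb.gen f) = aeval (4 : ZMod 23) f := by
          change ev (aeval pb.gen f) = _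
          rw [← Polynomial.aeval_algHom_apply, hgen, hevζ]
        rw [h1] at hx
        have h4 : (4 : ZMod 23) = algebraMap ℤ (ZMod 23) 4 := by simp
        rw [h4, Polynomial.aeval_algebraMap_apply] at hx
        simpa using hx
      obtain ⟨k, hk⟩ := (ZMod.intCast_zmod_eq_zero_iff_dvd _ 23).mp hx'
      rw [Ideal.submodule_span_eq, Ideal.mem_span_singleton]
      refine ⟨γ * aeval pb.gen (f /ₘ (X - C (4 : ℤ))) + β * (k : 𝓞 K), ?_⟩
      have h2 : aeval pb.gen f = (ζ - 4) * aeval pb.gen (f /ₘ (X - C (4 : ℤ))) + 23 * (k : 𝓞 K) := by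
        conv_lhs => rw [← hdiv]
        simp only [map_add, map_mul, map_sub, aeval_X, aeval_C, hgen, hk]
        simp
        ring
      rw [h2, ← hγ, ← hβ]
      ring
    · rw [Ideal.submodule_span_eq, Ideal.span_singleton_le_iff_mem, RingHom.mem_ker]
      change ev (1 + ζ + ζ ^ 3) = 0
      simp only [map_add, map_pow, map_one, hevζ]
      exact gen_eval_four

/-- The Minkowski bound of `ℚ(ζ₁₁)` is smaller than `67`. -/
theorem minkowski_floor_le :
    ⌊(4 / π) ^ nrComplexPlaces K *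
      ((finrank ℚ K)! / (finrank ℚ K) ^ (finrank ℚ K) * √|(discr K : ℝ)|)⌋₊ ≤ 66 := by
  have : Fact (Nat.Prime 11) := ⟨by norm_num⟩
  rw [IsCyclotomicExtension.Rat.discr_prime 11 K,
    IsCyclotomicExtension.finrank (n := 11) K (Polynomial.cyclotomic.irreducible_rat (by norm_num)),
    IsCyclotomicExtension.Rat.nrComplexPlaces_eq_totient_div_two 11,
    totient_prime (by norm_num : Nat.Prime 11)]
  have h1 : (4 / π) ^ ((11 - 1) / 2) ≤ (4 / 3.14 : ℝ) ^ 5 := by
    show (4 / π) ^ 5 ≤ (4 / 3.14 : ℝ) ^ 5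
    have hpi : (3.14 : ℝ) ≤ π := pi_gt_d2.le
    gcongr
  have h2 : √|(((-1 : ℤ) ^ ((11 - 1) / 2) * (11 : ℕ) ^ (11 - 2) : ℤ) : ℝ)| ≤ 48559 := by
    rw [Real.sqrt_le_iff]
    refine ⟨by norm_num, ?_⟩
    norm_num
  have h3 : (0 : ℝ) ≤ ((11 - 1 : ℕ)! : ℝ) / ((11 - 1 : ℕ) : ℝ) ^ (11 - 1) := by positivity
  rw [← Nat.lt_succ_iff, Nat.floor_lt (by positivity)]
  calc (4 / π) ^ ((11 - 1) / 2) * (((11 - 1 : ℕ)! : ℝ) / ((11 - 1 : ℕ) : ℝ) ^ (11 - 1) *
        √|(((-1 : ℤ) ^ ((11 - 1) / 2) * (11 : ℕ) ^ (11 - 2) : ℤ) : ℝ)|)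
      ≤ (4 / 3.14 : ℝ) ^ 5 * (((11 - 1 : ℕ)! : ℝ) / ((11 - 1 : ℕ) : ℝ) ^ (11 - 1) * 48559) := by
        gcongr
    _ < ((66 : ℕ).succ : ℝ) := by
        norm_num [Nat.factorial]


end

end Fermat.Agent.Kummer.PID11

namespace Fermat.Agent.Kummer

open NumberField Ideal

/-- The ring of integers of `ℚ(ζ₁₁)` is a PID. -/
theorem eleven_pid (K : Type*) [Field K] [NumberField K] [IsCyclotomicExtension {11} ℚ K] :
    IsPrincipalIdealRing (𝓞 K) := by
  have : Fact (Nat.Prime 11) := ⟨by norm_num⟩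
  have : IsGalois ℚ K := IsCyclotomicExtension.isGalois {11} ℚ K
  apply RingOfIntegers.isPrincipalIdealRing_of_isPrincipal_of_lt_or_isPrincipal_of_mem_primesOver_of_mem_Icc
  intro q hq hqprime
  have hM := PID11.minkowski_floor_le K
  rw [Finset.mem_Icc] at hq
  have hq66 : q ≤ 66 := hq.2.trans hM
  have : Fact q.Prime := ⟨hqprime⟩
  by_cases h11 : q = 11
  · subst h11
    obtain ⟨⟨P, hP1, hP2⟩⟩ := (span {((11 : ℕ) : ℤ)}).nonempty_primesOver (S := 𝓞 K)
    refine ⟨P, ⟨hP1, hP2⟩, Or.inr ?_⟩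
    rw [IsCyclotomicExtension.Rat.eq_span_zeta_sub_one_of_liesOver' 11 K
      (IsCyclotomicExtension.zeta_spec 11 ℚ K) P]
    exact ⟨_, rfl⟩
  by_cases h23 : q = 23
  · subst h23
    obtain ⟨P, hP, hprinc⟩ := PID11.exists_principal_over_23 K
    exact ⟨P, hP, Or.inr hprinc⟩
  · obtain ⟨⟨P, hP1, hP2⟩⟩ := (span {(q : ℤ)}).nonempty_primesOver (S := 𝓞 K)
    refine ⟨P, ⟨hP1, hP2⟩, Or.inl ?_⟩
    have hnd : ¬ q ∣ 11 := by
      rw [Nat.prime_dvd_prime_iff_eq hqprime (by norm_num)]; exact h11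
    rw [IsCyclotomicExtension.Rat.inertiaDeg_eq_of_not_dvd q K P hnd]
    exact lt_of_le_of_lt hM (PID11.lt_pow_orderOf q hqprime hq66 h11 h23)

/-- Alias of `eleven_pid` under the blueprint name. -/
theorem pid_11 (K : Type*) [Field K] [NumberField K] [IsCyclotomicExtension {11} ℚ K] :
    IsPrincipalIdealRing (𝓞 K) :=
  eleven_pid K

end Fermat.Agent.Kummer
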