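/-
Team KUMMER, block UnitsGen (owner: helper73).
Dirichlet's unit theorem for `K = ℚ(ζ_p)`, `p` an odd prime, in the form:
the unit group `(𝓞 K)ˣ` is generated by `(p - 1) / 2` elements.
-/
import Mathlib
import Fermat.Agent.Kummer.Defs

set_option autoImplicit false

namespace Fermat.Agent.Kummer.UnitsGen

open NumberField NumberField.Units NumberField.InfinitePlace

/-- The unit rank of `ℚ(ζ_p)` plus one is `(p - 1) / 2`. -/
theorem rank_add_one {p : ℕ} [hp : Fact p.Prime] (hp2 : p ≠ 2) (K : Type*) [Field K]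
    [NumberField K] [IsCyclotomicExtension {p} ℚ K] :
    NumberField.Units.rank K + 1 = (p - 1) / 2 := by
  have h2 : 2 < p := lt_of_le_of_ne hp.out.two_le (Ne.symm hp2)
  have hcard : Fintype.card (InfinitePlace K) = (p - 1) / 2 := by
    rw [card_eq_nrRealPlaces_add_nrComplexPlaces,
      IsCyclotomicExtension.Rat.nrRealPlaces_eq_zero (n := p) K h2,
      IsCyclotomicExtension.Rat.nrComplexPlaces_eq_totient_div_two p, Nat.totient_prime hp.out,
      zero_add]
  rw [NumberField.Units.rank, hcard]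
  have : 1 ≤ (p - 1) / 2 := by omega
  omega

/-- Auxiliary form with an arbitrary index bound. -/
theorem exists_generators_aux (K : Type*) [Field K] [NumberField K] (k : ℕ)
    (hk : NumberField.Units.rank K + 1 = k) :
    ∃ g : Fin k → (𝓞 K)ˣ, ∀ x : (𝓞 K)ˣ, ∃ e : Fin k → ℤ, x = ∏ i, g i ^ e i := by
  subst hk
  obtain ⟨t, ht⟩ := IsCyclic.exists_generator (α := torsion K)
  refine ⟨Fin.cons (t : (𝓞 K)ˣ) (fundSystem K), fun x => ?_⟩
  obtain ⟨⟨ζ, e⟩, hx, -⟩ := exist_unique_eq_mul_prod K x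
  obtain ⟨n, hn⟩ := Subgroup.mem_zpowers_iff.mp (ht ζ)
  refine ⟨Fin.cons n e, ?_⟩
  rw [Fin.prod_univ_succ]
  simp only [Fin.cons_zero, Fin.cons_succ]
  rw [hx]
  congr 1
  rw [← hn]
  simp

/-- **Dirichlet's unit theorem for `ℚ(ζ_p)`**: the unit group is generated by `(p - 1) / 2`
elements. -/
theorem exists_generators {p : ℕ} [Fact p.Prime] (hp2 : p ≠ 2) (K : Type*) [Field K]
    [NumberField K] [IsCyclotomicExtension {p} ℚ K] :
    ∃ g : Fin ((p - 1) / 2) → (𝓞 K)ˣ, ∀ x : (𝓞 K)ˣ,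
      ∃ e : Fin ((p - 1) / 2) → ℤ, x = ∏ i, g i ^ e i :=
  exists_generators_aux K _ (rank_add_one hp2 K)

end Fermat.Agent.Kummer.UnitsGen
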